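import Mathlib
import Fermat.Agent.FF.KMGeneral
import Fermat.Agent.G.Red.Val

/-!
# Program TT (S33), nodal closed fibre, part 1: values at degree-one places and interpolation

Owner: helper25.  Namespace `Fermat.Agent.TT`, prefix `ttnk`.

`F / K` a function field with `R : V27RR K F g`, all places of degree one; `ν : ι → Place K F` a
finite injective family of places ("the nodes on this component"), `ttnkN ν = Σ ν i` the node
divisor.  For a divisor `A` avoiding the nodes the elements of `L(A)` have values at the nodes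
(`GrdVal (ν i) f c`, API of `G/Red/Val.lean`), the kernel of the evaluation is `L(A - N)`, and the
evaluation is onto `ι → K` as soon as `deg A ≥ 2g - 1 + #ι` (`ttnk_interp`).
-/

set_option autoImplicit false
set_option linter.unusedSectionVars false
set_option linter.unusedVariables false

noncomputable section

namespace Fermat.Agent.TT

open AlgebraicCurve Module Fermat.Agent.V.RR Fermat.Agent.G Fermat.Agent.FF

variable {K F : Type*} [Field K] [Field F] [Algebra K F] {g : ℕ}

/-! ### values -/

theorem ttnk_val_zero (P : Place K F) : GrdVal P (0 : F) 0 := by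
  show (0 : F) - algebraMap K F 0 ∈ _
  rw [map_zero, sub_zero]
  exact zero_mem _

theorem ttnk_val_one (P : Place K F) : GrdVal P (1 : F) 1 := by
  have := grdg_val_algebraMap P (1 : K)
  rwa [map_one] at this

theorem ttnk_val_smul (P : Place K F) {x : F} {a : K} (c : K) (hx : GrdVal P x a) :
    GrdVal P (c • x) (c * a) := by
  rw [Algebra.smul_def]
  exact grdg_val_mul P (grdg_val_algebraMap P c) hx

theorem ttnk_val_sub (P : Place K F) {x y : F} {a b : K} (hx : GrdVal P x a) (hy : GrdVal P y b) :
    GrdVal P (x - y) (a - b) := by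
  rw [sub_eq_add_neg, sub_eq_add_neg]
  exact grdg_val_add P hx (grdg_val_neg P hy)

theorem ttnk_val_sum (P : Place K F) {ι : Type*} (s : Finset ι) (x : ι → F) (a : ι → K)
    (hx : ∀ i ∈ s, GrdVal P (x i) (a i)) : GrdVal P (∑ i ∈ s, x i) (∑ i ∈ s, a i) := by
  classical
  induction s using Finset.induction_on with
  | empty => simpa using ttnk_val_zero P
  | insert i s hi ih =>
    rw [Finset.sum_insert hi, Finset.sum_insert hi]
    exact grdg_val_add P (hx i (Finset.mem_insert_self i s))
      (ih fun j hj => hx j (Finset.mem_insert_of_mem hj))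

/-- at a place of degree one every element of the valuation ring has a value -/
theorem ttnk_val_exists (P : Place K F) (hP : P.deg = 1) {x : F}
    (hx : x ∈ P.toValuationSubring) : ∃ a : K, GrdVal P x a := by
  have h1 : finrank K P.ResidueField = 1 := hP
  obtain ⟨a, ha⟩ := (finrank_eq_one_iff_of_nonzero' (1 : P.ResidueField) one_ne_zero).mp h1
    (IsLocalRing.residue _ (⟨x, hx⟩ : P.toValuationSubring))
  refine ⟨a, ?_⟩
  have h2 : (⟨x, hx⟩ - algebraMap K P.toValuationSubring a : P.toValuationSubring) ∈
      IsLocalRing.maximalIdeal P.toValuationSubring := by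
    rw [← IsLocalRing.residue_eq_zero_iff, map_sub, sub_eq_zero, ← ha, Algebra.smul_def, mul_one]
    rfl
  show x - algebraMap K F a ∈ _
  rw [ValuationSubring.mem_nonunits_iff_exists_mem_maximalIdeal]
  exact ⟨sub_mem hx (P.algebraMap_mem' a), h2⟩

/-- elements of `L(A)` are regular at the places where `A ≤ 0` -/
theorem ttnk_mem_valuationSubring {A : Divisor K F} {P : Place K F} (hA : A P ≤ 0) {f : F}
    (hf : f ∈ riemannRochSpace A) : f ∈ P.toValuationSubring := by
  by_cases h0 : f = 0
  · rw [h0]
    exact zero_mem _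
  rw [grdg_mem_iff_ord P h0]
  have := (ffkm_mem_iff h0).mp hf P
  linarith

/-- elements of `L(A)` have a value at the places of degree one where `A ≤ 0` -/
theorem ttnk_val_exists_of_mem {A : Divisor K F} {P : Place K F} (hP : P.deg = 1)
    (hA : A P ≤ 0) {f : F} (hf : f ∈ riemannRochSpace A) : ∃ a : K, GrdVal P f a :=
  ttnk_val_exists P hP (ttnk_mem_valuationSubring hA hf)

/-- an element of exact order zero has a non-zero value -/
theorem ttnk_val_ne_zero (P : Place K F) {x : F} (hx0 : x ≠ 0) (hord : P.ord x = 0) {a : K}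
    (ha : GrdVal P x a) : a ≠ 0 := by
  rintro rfl
  have := (grdg_val_zero_iff_ord P hx0).mp ha
  omega

/-! ### the node divisor -/

section Nodes

variable {ι : Type*} [Fintype ι] (ν : ι → Place K F)

/-- the node divisor `Σ ν i` -/
def ttnkN : Divisor K F := ∑ i, Finsupp.single (ν i) 1

theorem ttnkN_nonneg : 0 ≤ ttnkN ν :=
  Finset.sum_nonneg fun i _ => Finsupp.single_nonneg.mpr zero_le_one

theorem ttnkN_apply_node (hν : Function.Injective ν) (i : ι) : ttnkN ν (ν i) = 1 := by
  classical
  rw [ttnkN, Finsupp.finsetSum_apply, Finset.sum_eq_single i]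
  · rw [Finsupp.single_eq_same]
  · intro j _ hj
    rw [Finsupp.single_eq_of_ne]
    exact fun h => hj (hν h).symm
  · intro h
    exact absurd (Finset.mem_univ i) h

theorem ttnkN_apply_of_ne (P : Place K F) (hP : ∀ i, ν i ≠ P) : ttnkN ν P = 0 := by
  classical
  rw [ttnkN, Finsupp.finsetSum_apply]
  refine Finset.sum_eq_zero fun i _ => ?_
  rw [Finsupp.single_eq_of_ne]
  exact fun h => hP i h.symm

theorem ttnkN_degree (hdeg1 : ∀ v : Place K F, v.deg = 1) :
    Divisor.degree (ttnkN ν) = Fintype.card ι := by
  rw [ttnkN, map_sum]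
  simp only [Divisor.degree_single, hdeg1, Nat.cast_one, mul_one, Finset.sum_const,
    Finset.card_univ, nsmul_eq_mul]

/-- for `f ∈ L(A)`, `A` avoiding the nodes: all node values vanish iff `f ∈ L(A - N)` -/
theorem ttnk_mem_sub_iff (hν : Function.Injective ν) {A : Divisor K F}
    (hA : ∀ i, A (ν i) = 0) {f : F} (hf : f ∈ riemannRochSpace A) :
    (∀ i, GrdVal (ν i) f 0) ↔ f ∈ riemannRochSpace (A - ttnkN ν) := by
  by_cases h0 : f = 0
  · rw [h0]
    exact ⟨fun _ => Submodule.zero_mem _, fun _ i => ttnk_val_zero _⟩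
  rw [ffkm_mem_iff h0]
  have hmem := (ffkm_mem_iff h0).mp hf
  constructor
  · intro h v
    by_cases hv : ∃ i, ν i = v
    · obtain ⟨i, rfl⟩ := hv
      have := (grdg_val_zero_iff_ord (ν i) h0).mp (h i)
      rw [Finsupp.sub_apply, hA i, ttnkN_apply_node ν hν i]
      omega
    · push Not at hv
      rw [Finsupp.sub_apply, ttnkN_apply_of_ne ν v hv, sub_zero]
      exact hmem v
  · intro h i
    rw [grdg_val_zero_iff_ord (ν i) h0]
    have := h (ν i)
    rw [Finsupp.sub_apply, hA i, ttnkN_apply_node ν hν i] at this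
    omega

theorem ttnk_sub_le (A : Divisor K F) : A - ttnkN ν ≤ A :=
  sub_le_self _ (ttnkN_nonneg ν)

/-- **interpolation**: for `deg A ≥ 2g - 1 + #ι` the evaluation `L(A) → (ι → K)` is onto -/
theorem ttnk_interp (R : V27RR K F g) (hdeg1 : ∀ v : Place K F, v.deg = 1)
    (hν : Function.Injective ν) {A : Divisor K F} (hA : ∀ i, A (ν i) = 0)
    (hdeg : 2 * (g : ℤ) - 1 + Fintype.card ι ≤ Divisor.degree A) (c : ι → K) :
    ∃ f : F, f ∈ riemannRochSpace A ∧ ∀ i, GrdVal (ν i) f (c i) := by
  classical
  -- the Lagrange functions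
  have key : ∀ i : ι, ∃ f : F, f ∈ riemannRochSpace A ∧ GrdVal (ν i) f 1 ∧
      ∀ j, j ≠ i → GrdVal (ν j) f 0 := by
    intro i
    set D : Divisor K F := A - ttnkN ν + Finsupp.single (ν i) 1 with hD
    have hDdeg : Divisor.degree D = Divisor.degree A - Fintype.card ι + 1 := by
      rw [hD, map_add, map_sub, ttnkN_degree ν hdeg1, Divisor.degree_single, hdeg1]
      simp
    have hDle : D ≤ A := by
      rw [hD, Finsupp.le_def]
      intro v
      rw [Finsupp.add_apply, Finsupp.sub_apply]
      by_cases hv : v = ν i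
      · rw [hv, ttnkN_apply_node ν hν i, Finsupp.single_eq_same]
        omega
      · rw [Finsupp.single_eq_of_ne hv, add_zero]
        have := Finsupp.le_def.mp (ttnkN_nonneg ν) v
        rw [Finsupp.zero_apply] at this
        omega
    obtain ⟨f, hf0, hf, hord⟩ := R.exists_ord_eq (D := D) (ν i) (by
      rw [hDdeg, hdeg1]
      push_cast
      linarith)
    have hDi : D (ν i) = 0 := by
      rw [hD, Finsupp.add_apply, Finsupp.sub_apply, hA i, ttnkN_apply_node ν hν i,
        Finsupp.single_eq_same]
      ring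
    rw [hDi, neg_zero] at hord
    have hfA : f ∈ riemannRochSpace A := ffkm_mono hDle hf
    obtain ⟨a, ha⟩ := ttnk_val_exists_of_mem (hdeg1 (ν i)) (hA i).le hfA
    have ha0 : a ≠ 0 := ttnk_val_ne_zero (ν i) hf0 hord ha
    refine ⟨a⁻¹ • f, Submodule.smul_mem _ _ hfA, ?_, fun j hj => ?_⟩
    · have := ttnk_val_smul (ν i) a⁻¹ ha
      rwa [inv_mul_cancel₀ ha0] at this
    · have hDj : D (ν j) = -1 := by
        have hne : ν j ≠ ν i := fun h => hj (hν h)
        rw [hD, Finsupp.add_apply, Finsupp.sub_apply, hA j, ttnkN_apply_node ν hν j,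
          Finsupp.single_eq_of_ne hne]
        ring
      have h1 := (ffkm_mem_iff hf0).mp hf (ν j)
      rw [hDj] at h1
      have h2 : GrdVal (ν j) f 0 := (grdg_val_zero_iff_ord (ν j) hf0).mpr (by omega)
      have := ttnk_val_smul (ν j) a⁻¹ h2
      rwa [mul_zero] at this
  choose e he hei hej using key
  refine ⟨∑ i, c i • e i, Submodule.sum_mem _ fun i _ => Submodule.smul_mem _ _ (he i), fun j => ?_⟩
  have h1 : ∀ i ∈ (Finset.univ : Finset ι),
      GrdVal (ν j) (c i • e i) (if i = j then c j else 0) := by
    intro i _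
    by_cases hij : i = j
    · subst hij
      rw [if_pos rfl]
      have := ttnk_val_smul (ν i) (c i) (hei i)
      rwa [mul_one] at this
    · rw [if_neg hij]
      have := ttnk_val_smul (ν j) (c i) (hej i j (fun h => hij h.symm))
      rwa [mul_zero] at this
  have := ttnk_val_sum (ν j) Finset.univ (fun i => c i • e i) _ h1
  rwa [Finset.sum_ite_eq' Finset.univ j, if_pos (Finset.mem_univ j)] at this

end Nodes

end Fermat.Agent.TT
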