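import Mathlib
import Fermat.Agent.TT.Nodal.Val

/-!
# Program TT (S33), nodal closed fibre, part 2: the spaces `L̃(A₁, A₂)` of a two-component nodal
curve, Riemann–Roch, Mumford multiplication, colon

Owner: helper25.  Namespace `Fermat.Agent.TT`, prefix `ttnk`.

Two function fields `F₁, F₂ / K` with `R_j : V27RR K F_j g_j`, all places of degree one, `K`
infinite; nodes `ν₁ i ~ ν₂ i` (`i : ι`, both families injective).  The total ring of fractions of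
the nodal curve `C̃ = C₁ ∪ C₂` is `F₁ × F₂`; for divisors `A_j` on `C_j` AVOIDING the nodes

  `ttnkL ν₁ ν₂ A₁ A₂ = {(f₁, f₂) ∈ L(A₁) × L(A₂) : f₁(ν₁ i) = f₂(ν₂ i) for all i}`

is `H⁰(C̃, O(A₁ + A₂))`.  With `s = #ι`, `N_j = Σ ν_j i`:

* `ttnk_finrank`  : `l̃(A) + s = l(A₁) + l(A₂)`           (`deg A₁ ≥ 2g₁ - 1 + s`);
* `ttnk_riemann`  : `deg A + 1 - (g₁ + g₂ + s - 1) ≤ l̃(A)` (always);
* `ttnk_mul_eq`   : `L̃(A)·L̃(B) = L̃(A + B)`   (`deg A_j ≥ 4g_j + s`, `deg B_j ≥ 2g_j - 1 + s`, `2g_j`);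
* `ttnk_colon`    : `f·L̃(B) ⊆ L̃(C) ↔ f ∈ L̃(C - B)` (`deg B_j ≥ 2g_j + s`);
* `ttnk_inf`      : `L̃(A) ⊓ L̃(B) = L̃(A ⊓ B)`.
-/

set_option autoImplicit false
set_option linter.unusedSectionVars false
set_option linter.unusedVariables false

noncomputable section

namespace Fermat.Agent.TT

open AlgebraicCurve Module Fermat.Agent.V.RR Fermat.Agent.G Fermat.Agent.FF Fermat.Agent.MW17

variable {K F₁ F₂ : Type*} [Field K] [Field F₁] [Field F₂] [Algebra K F₁] [Algebra K F₂]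
  {g₁ g₂ : ℕ} {ι : Type*} [Fintype ι] (ν₁ : ι → Place K F₁) (ν₂ : ι → Place K F₂)

/-- a pair of functions with common values at the nodes -/
def TtnkMatch (f : F₁ × F₂) : Prop := ∀ i, ∃ c : K, GrdVal (ν₁ i) f.1 c ∧ GrdVal (ν₂ i) f.2 c

theorem ttnk_match_zero : TtnkMatch ν₁ ν₂ (0 : F₁ × F₂) :=
  fun i => ⟨0, ttnk_val_zero _, ttnk_val_zero _⟩

theorem ttnk_match_one : TtnkMatch ν₁ ν₂ (1 : F₁ × F₂) :=
  fun i => ⟨1, ttnk_val_one _, ttnk_val_one _⟩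

theorem ttnk_match_add {f h : F₁ × F₂} (hf : TtnkMatch ν₁ ν₂ f) (hh : TtnkMatch ν₁ ν₂ h) :
    TtnkMatch ν₁ ν₂ (f + h) := by
  intro i
  obtain ⟨c, hc1, hc2⟩ := hf i
  obtain ⟨d, hd1, hd2⟩ := hh i
  exact ⟨c + d, grdg_val_add _ hc1 hd1, grdg_val_add _ hc2 hd2⟩

theorem ttnk_match_neg {f : F₁ × F₂} (hf : TtnkMatch ν₁ ν₂ f) : TtnkMatch ν₁ ν₂ (-f) := by
  intro i
  obtain ⟨c, hc1, hc2⟩ := hf i
  exact ⟨-c, grdg_val_neg _ hc1, grdg_val_neg _ hc2⟩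

theorem ttnk_match_sub {f h : F₁ × F₂} (hf : TtnkMatch ν₁ ν₂ f) (hh : TtnkMatch ν₁ ν₂ h) :
    TtnkMatch ν₁ ν₂ (f - h) := by
  rw [sub_eq_add_neg]
  exact ttnk_match_add ν₁ ν₂ hf (ttnk_match_neg ν₁ ν₂ hh)

theorem ttnk_match_smul (a : K) {f : F₁ × F₂} (hf : TtnkMatch ν₁ ν₂ f) :
    TtnkMatch ν₁ ν₂ (a • f) := by
  intro i
  obtain ⟨c, hc1, hc2⟩ := hf i
  exact ⟨a * c, ttnk_val_smul _ a hc1, ttnk_val_smul _ a hc2⟩

theorem ttnk_match_mul {f h : F₁ × F₂} (hf : TtnkMatch ν₁ ν₂ f) (hh : TtnkMatch ν₁ ν₂ h) :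
    TtnkMatch ν₁ ν₂ (f * h) := by
  intro i
  obtain ⟨c, hc1, hc2⟩ := hf i
  obtain ⟨d, hd1, hd2⟩ := hh i
  exact ⟨c * d, grdg_val_mul _ hc1 hd1, grdg_val_mul _ hc2 hd2⟩

/-- the space `L̃(A₁, A₂) = H⁰(C̃, O(A₁ + A₂))` of the nodal curve -/
def ttnkL (A₁ : Divisor K F₁) (A₂ : Divisor K F₂) : Submodule K (F₁ × F₂) where
  carrier := {f | f.1 ∈ riemannRochSpace A₁ ∧ f.2 ∈ riemannRochSpace A₂ ∧ TtnkMatch ν₁ ν₂ f}
  zero_mem' := ⟨Submodule.zero_mem _, Submodule.zero_mem _, ttnk_match_zero ν₁ ν₂⟩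
  add_mem' := fun {f h} hf hh =>
    ⟨Submodule.add_mem _ hf.1 hh.1, Submodule.add_mem _ hf.2.1 hh.2.1,
      ttnk_match_add ν₁ ν₂ hf.2.2 hh.2.2⟩
  smul_mem' := fun a f hf =>
    ⟨Submodule.smul_mem _ a hf.1, Submodule.smul_mem _ a hf.2.1, ttnk_match_smul ν₁ ν₂ a hf.2.2⟩

theorem ttnk_mem_L {A₁ : Divisor K F₁} {A₂ : Divisor K F₂} {f : F₁ × F₂} :
    f ∈ ttnkL ν₁ ν₂ A₁ A₂ ↔
      f.1 ∈ riemannRochSpace A₁ ∧ f.2 ∈ riemannRochSpace A₂ ∧ TtnkMatch ν₁ ν₂ f := Iff.rfl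

theorem ttnk_L_mono {A₁ B₁ : Divisor K F₁} {A₂ B₂ : Divisor K F₂} (h₁ : A₁ ≤ B₁) (h₂ : A₂ ≤ B₂) :
    ttnkL ν₁ ν₂ A₁ A₂ ≤ ttnkL ν₁ ν₂ B₁ B₂ :=
  fun f hf => ⟨ffkm_mono h₁ hf.1, ffkm_mono h₂ hf.2.1, hf.2.2⟩

theorem ttnk_inf (A₁ B₁ : Divisor K F₁) (A₂ B₂ : Divisor K F₂) :
    ttnkL ν₁ ν₂ A₁ A₂ ⊓ ttnkL ν₁ ν₂ B₁ B₂ = ttnkL ν₁ ν₂ (A₁ ⊓ B₁) (A₂ ⊓ B₂) := by
  ext f
  rw [Submodule.mem_inf, ttnk_mem_L, ttnk_mem_L, ttnk_mem_L, ← ffkm_inf, ← ffkm_inf,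
    Submodule.mem_inf, Submodule.mem_inf]
  tauto

/-- the constant `1` is a section of an effective divisor -/
theorem ttnk_one_mem {A₁ : Divisor K F₁} {A₂ : Divisor K F₂} (h₁ : 0 ≤ A₁) (h₂ : 0 ≤ A₂) :
    (1 : F₁ × F₂) ∈ ttnkL ν₁ ν₂ A₁ A₂ := by
  refine ⟨?_, ?_, ttnk_match_one ν₁ ν₂⟩
  · show (1 : F₁) ∈ _
    rw [ffkm_mem_iff one_ne_zero]
    intro v
    rw [Place.ord_one]
    have := Finsupp.le_def.mp h₁ v
    rw [Finsupp.zero_apply] at this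
    omega
  · show (1 : F₂) ∈ _
    rw [ffkm_mem_iff one_ne_zero]
    intro v
    rw [Place.ord_one]
    have := Finsupp.le_def.mp h₂ v
    rw [Finsupp.zero_apply] at this
    omega

theorem ttnk_mul_mem {A₁ B₁ : Divisor K F₁} {A₂ B₂ : Divisor K F₂} {f h : F₁ × F₂}
    (hf : f ∈ ttnkL ν₁ ν₂ A₁ A₂) (hh : h ∈ ttnkL ν₁ ν₂ B₁ B₂) :
    f * h ∈ ttnkL ν₁ ν₂ (A₁ + B₁) (A₂ + B₂) :=
  ⟨mw17pg_mul_mem hf.1 hh.1, mw17pg_mul_mem hf.2.1 hh.2.1, ttnk_match_mul ν₁ ν₂ hf.2.2 hh.2.2⟩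

theorem ttnk_mul_le (A₁ B₁ : Divisor K F₁) (A₂ B₂ : Divisor K F₂) :
    ttnkL ν₁ ν₂ A₁ A₂ * ttnkL ν₁ ν₂ B₁ B₂ ≤ ttnkL ν₁ ν₂ (A₁ + B₁) (A₂ + B₂) :=
  Submodule.mul_le.mpr fun f hf h hh => ttnk_mul_mem ν₁ ν₂ hf hh

/-! ### the evaluation map and Riemann–Roch -/

section Ev

variable {F : Type*} [Field F] [Algebra K F] {g : ℕ} (ν : ι → Place K F)

/-- the evaluation `L(A) → (ι → K)` at places of degree one off the support of `A` -/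
def ttnkEv (hdeg1 : ∀ v : Place K F, v.deg = 1) (A : Divisor K F) (hA : ∀ i, A (ν i) = 0) :
    riemannRochSpace A →ₗ[K] (ι → K) where
  toFun f i := Classical.choose (ttnk_val_exists_of_mem (hdeg1 (ν i)) (hA i).le f.2)
  map_add' f h := by
    funext i
    have h1 := Classical.choose_spec (ttnk_val_exists_of_mem (hdeg1 (ν i)) (hA i).le f.2)
    have h2 := Classical.choose_spec (ttnk_val_exists_of_mem (hdeg1 (ν i)) (hA i).le h.2)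
    have h3 := Classical.choose_spec (ttnk_val_exists_of_mem (hdeg1 (ν i)) (hA i).le (f + h).2)
    exact grdg_val_unique (ν i) h3 (grdg_val_add (ν i) h1 h2)
  map_smul' a f := by
    funext i
    have h1 := Classical.choose_spec (ttnk_val_exists_of_mem (hdeg1 (ν i)) (hA i).le f.2)
    have h3 := Classical.choose_spec (ttnk_val_exists_of_mem (hdeg1 (ν i)) (hA i).le (a • f).2)
    exact grdg_val_unique (ν i) h3 (ttnk_val_smul (ν i) a h1)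

theorem ttnkEv_spec (hdeg1 : ∀ v : Place K F, v.deg = 1) (A : Divisor K F)
    (hA : ∀ i, A (ν i) = 0) (f : riemannRochSpace A) (i : ι) :
    GrdVal (ν i) (f : F) (ttnkEv ν hdeg1 A hA f i) :=
  Classical.choose_spec (ttnk_val_exists_of_mem (hdeg1 (ν i)) (hA i).le f.2)

theorem ttnkEv_eq (hdeg1 : ∀ v : Place K F, v.deg = 1) (A : Divisor K F)
    (hA : ∀ i, A (ν i) = 0) (f : riemannRochSpace A) (i : ι) {c : K}
    (hc : GrdVal (ν i) (f : F) c) : ttnkEv ν hdeg1 A hA f i = c :=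
  grdg_val_unique (ν i) (ttnkEv_spec ν hdeg1 A hA f i) hc

theorem ttnkEv_surjective (R : V27RR K F g) (hdeg1 : ∀ v : Place K F, v.deg = 1)
    (hν : Function.Injective ν) (A : Divisor K F) (hA : ∀ i, A (ν i) = 0)
    (hdeg : 2 * (g : ℤ) - 1 + Fintype.card ι ≤ Divisor.degree A) :
    Function.Surjective (ttnkEv ν hdeg1 A hA) := by
  intro c
  obtain ⟨f, hf, hc⟩ := ttnk_interp ν R hdeg1 hν hA hdeg c
  refine ⟨⟨f, hf⟩, funext fun i => ?_⟩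
  exact ttnkEv_eq ν hdeg1 A hA ⟨f, hf⟩ i (hc i)

end Ev

section RR

variable (hdeg1₁ : ∀ v : Place K F₁, v.deg = 1) (hdeg1₂ : ∀ v : Place K F₂, v.deg = 1)
  (A₁ : Divisor K F₁) (A₂ : Divisor K F₂) (hA₁ : ∀ i, A₁ (ν₁ i) = 0) (hA₂ : ∀ i, A₂ (ν₂ i) = 0)

/-- the difference of the two evaluations -/
def ttnkDiff : (riemannRochSpace A₁ × riemannRochSpace A₂) →ₗ[K] (ι → K) :=
  (ttnkEv ν₁ hdeg1₁ A₁ hA₁).coprod (-(ttnkEv ν₂ hdeg1₂ A₂ hA₂))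

theorem ttnkDiff_apply (f : riemannRochSpace A₁ × riemannRochSpace A₂) :
    ttnkDiff ν₁ ν₂ hdeg1₁ hdeg1₂ A₁ A₂ hA₁ hA₂ f =
      ttnkEv ν₁ hdeg1₁ A₁ hA₁ f.1 - ttnkEv ν₂ hdeg1₂ A₂ hA₂ f.2 := by
  rw [ttnkDiff, LinearMap.coprod_apply, LinearMap.neg_apply, sub_eq_add_neg]

/-- `L̃(A)` is the image of the kernel of the difference of the evaluations -/
theorem ttnk_L_eq_map_ker :
    ttnkL ν₁ ν₂ A₁ A₂ = (LinearMap.ker (ttnkDiff ν₁ ν₂ hdeg1₁ hdeg1₂ A₁ A₂ hA₁ hA₂)).map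
      ((riemannRochSpace A₁).subtype.prodMap (riemannRochSpace A₂).subtype) := by
  ext f
  rw [Submodule.mem_map, ttnk_mem_L]
  constructor
  · rintro ⟨h1, h2, hm⟩
    refine ⟨(⟨f.1, h1⟩, ⟨f.2, h2⟩), ?_, rfl⟩
    rw [LinearMap.mem_ker, ttnkDiff_apply, sub_eq_zero]
    funext i
    obtain ⟨c, hc1, hc2⟩ := hm i
    rw [ttnkEv_eq ν₁ hdeg1₁ A₁ hA₁ ⟨f.1, h1⟩ i hc1, ttnkEv_eq ν₂ hdeg1₂ A₂ hA₂ ⟨f.2, h2⟩ i hc2]
  · rintro ⟨h, hh, rfl⟩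
    rw [LinearMap.mem_ker, ttnkDiff_apply, sub_eq_zero] at hh
    refine ⟨h.1.2, h.2.2, fun i => ⟨ttnkEv ν₁ hdeg1₁ A₁ hA₁ h.1 i, ?_, ?_⟩⟩
    · exact ttnkEv_spec ν₁ hdeg1₁ A₁ hA₁ h.1 i
    · rw [hh]
      exact ttnkEv_spec ν₂ hdeg1₂ A₂ hA₂ h.2 i

theorem ttnk_prodMap_injective :
    Function.Injective ((riemannRochSpace A₁).subtype.prodMap (riemannRochSpace A₂).subtype) := by
  intro a b hab
  have h1 := congrArg Prod.fst hab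
  have h2 := congrArg Prod.snd hab
  simp only [LinearMap.prodMap_apply, Submodule.subtype_apply] at h1 h2
  exact Prod.ext (Subtype.ext h1) (Subtype.ext h2)

include hdeg1₁ hdeg1₂ hA₁ hA₂ in
/-- `l̃(A) + rank(difference of evaluations) = l(A₁) + l(A₂)` -/
theorem ttnk_finrank_add_range (R₁ : V27RR K F₁ g₁) (R₂ : V27RR K F₂ g₂) :
    finrank K (ttnkL ν₁ ν₂ A₁ A₂) +
      finrank K (LinearMap.range (ttnkDiff ν₁ ν₂ hdeg1₁ hdeg1₂ A₁ A₂ hA₁ hA₂)) =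
      finrank K (riemannRochSpace A₁) + finrank K (riemannRochSpace A₂) := by
  have hf1 : Module.Finite K (riemannRochSpace A₁) := R₁.finL A₁
  have hf2 : Module.Finite K (riemannRochSpace A₂) := R₂.finL A₂
  rw [ttnk_L_eq_map_ker ν₁ ν₂ hdeg1₁ hdeg1₂ A₁ A₂ hA₁ hA₂,
    (Submodule.equivMapOfInjective _ (ttnk_prodMap_injective A₁ A₂) _).finrank_eq.symm,
    add_comm, LinearMap.finrank_range_add_finrank_ker, Module.finrank_prod]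

include hdeg1₁ hdeg1₂ hA₁ hA₂ in
/-- **Riemann–Roch on the nodal curve**: `l̃(A) + s = l(A₁) + l(A₂)` -/
theorem ttnk_finrank (R₁ : V27RR K F₁ g₁) (R₂ : V27RR K F₂ g₂) (hν₁ : Function.Injective ν₁)
    (hdeg : 2 * (g₁ : ℤ) - 1 + Fintype.card ι ≤ Divisor.degree A₁) :
    finrank K (ttnkL ν₁ ν₂ A₁ A₂) + Fintype.card ι =
      finrank K (riemannRochSpace A₁) + finrank K (riemannRochSpace A₂) := by
  have h := ttnk_finrank_add_range ν₁ ν₂ hdeg1₁ hdeg1₂ A₁ A₂ hA₁ hA₂ R₁ R₂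
  have hsurj : LinearMap.range (ttnkDiff ν₁ ν₂ hdeg1₁ hdeg1₂ A₁ A₂ hA₁ hA₂) = ⊤ := by
    rw [LinearMap.range_eq_top]
    intro c
    obtain ⟨f, hf⟩ := ttnkEv_surjective ν₁ R₁ hdeg1₁ hν₁ A₁ hA₁ hdeg c
    refine ⟨(f, 0), ?_⟩
    rw [ttnkDiff_apply, map_zero, sub_zero, hf]
  rw [hsurj, finrank_top, Module.finrank_fintype_fun_eq_card] at h
  exact h

include hdeg1₁ hdeg1₂ hA₁ hA₂ in
/-- **Riemann's inequality on the nodal curve** (`g̃ = g₁ + g₂ + s - 1`) -/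
theorem ttnk_riemann (R₁ : V27RR K F₁ g₁) (R₂ : V27RR K F₂ g₂) :
    Divisor.degree A₁ + Divisor.degree A₂ + 1 - ((g₁ : ℤ) + g₂ + Fintype.card ι - 1) ≤
      (finrank K (ttnkL ν₁ ν₂ A₁ A₂) : ℤ) := by
  have h := ttnk_finrank_add_range ν₁ ν₂ hdeg1₁ hdeg1₂ A₁ A₂ hA₁ hA₂ R₁ R₂
  have hle : finrank K (LinearMap.range (ttnkDiff ν₁ ν₂ hdeg1₁ hdeg1₂ A₁ A₂ hA₁ hA₂)) ≤
      Fintype.card ι := by
    have := Submodule.finrank_le (LinearMap.range (ttnkDiff ν₁ ν₂ hdeg1₁ hdeg1₂ A₁ A₂ hA₁ hA₂))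
    rwa [Module.finrank_fintype_fun_eq_card] at this
  have h1 := R₁.riemann_ineq A₁
  have h2 := R₂.riemann_ineq A₂
  have h' : (finrank K (ttnkL ν₁ ν₂ A₁ A₂) : ℤ) +
      finrank K (LinearMap.range (ttnkDiff ν₁ ν₂ hdeg1₁ hdeg1₂ A₁ A₂ hA₁ hA₂)) =
      finrank K (riemannRochSpace A₁) + finrank K (riemannRochSpace A₂) := by exact_mod_cast h
  have hle' : (finrank K (LinearMap.range (ttnkDiff ν₁ ν₂ hdeg1₁ hdeg1₂ A₁ A₂ hA₁ hA₂)) : ℤ) ≤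
      Fintype.card ι := by exact_mod_cast hle
  linarith

include hdeg1₁ hdeg1₂ hA₁ hA₂ in
/-- the dimension formula in the non-special range -/
theorem ttnk_finrank_deg (R₁ : V27RR K F₁ g₁) (R₂ : V27RR K F₂ g₂)
    (hν₁ : Function.Injective ν₁)
    (hd₁ : 2 * (g₁ : ℤ) - 1 + Fintype.card ι ≤ Divisor.degree A₁)
    (hd₂ : 2 * (g₂ : ℤ) - 1 ≤ Divisor.degree A₂) :
    (finrank K (ttnkL ν₁ ν₂ A₁ A₂) : ℤ) =
      Divisor.degree A₁ + Divisor.degree A₂ + 1 - ((g₁ : ℤ) + g₂ + Fintype.card ι - 1) := by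
  have h := ttnk_finrank ν₁ ν₂ hdeg1₁ hdeg1₂ A₁ A₂ hA₁ hA₂ R₁ R₂ hν₁ hd₁
  have e1 := ffkm_finrank R₁ (A := A₁) (by linarith)
  have e2 := ffkm_finrank R₂ (A := A₂) hd₂
  have h' : (finrank K (ttnkL ν₁ ν₂ A₁ A₂) : ℤ) + Fintype.card ι =
      finrank K (riemannRochSpace A₁) + finrank K (riemannRochSpace A₂) := by exact_mod_cast h
  linarith

end RR

end Fermat.Agent.TT
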