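import Mathlib
import Fermat.Agent.TT.Eng.Sub

/-!
# Program TT (S33), nodal closed fibre, part 4: the coordinate layer over ANY commutative algebra

Owner: helper25.  Namespace `Fermat.Agent.TT`, prefix `ttnk`.

`TtnkCoord ι K 𝒜 c`: level spaces `lvl i ⊆ 𝒜` (`i = 1..5`) in a commutative `K`-algebra `𝒜` with
bases `b i` whose products are given by the table `c` (for a function field this is `FffmFib`
without the geometry; for the nodal curve `𝒜 = F₁ × F₂`).  The coordinate operations `tteMul`,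
`tteColon` of `TT/Eng/Sub.lean` compute products and colons of subspaces of `𝒜`:

* `ttnk_rep_mul`   : `U ↔ V`, `U' ↔ V'` ⟹ `tteMul c U U' ↔ V * V'`;
* `ttnk_rep_colon` : `Cs ↔ VC`, `Bs ↔ VB` ⟹ `tteColon c Cs Bs ↔ lvl i ⊓ {f | f • VB ⊆ VC}`.
-/

set_option autoImplicit false
set_option linter.unusedSectionVars false
set_option linter.unusedVariables false

noncomputable section

namespace Fermat.Agent.TT

open Module Fermat.Agent.FF

/-- level spaces with bases and a multiplication table in a commutative algebra -/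
structure TtnkCoord (ι : ℕ → Type) [∀ i, Fintype (ι i)] (K 𝒜 : Type*) [Field K] [CommRing 𝒜]
    [Algebra K 𝒜] (c : ∀ i j k : ℕ, ι i → ι j → ι k → K) where
  lvl : ℕ → Submodule K 𝒜
  b : ∀ i, ι i → 𝒜
  li : ∀ i, 1 ≤ i → i ≤ 5 → LinearIndependent K (b i)
  span : ∀ i, 1 ≤ i → i ≤ 5 → Submodule.span K (Set.range (b i)) = lvl i
  mul : ∀ i j k, k = i + j → 1 ≤ i → 1 ≤ j → k ≤ 5 → ∀ p q,
    b i p * b j q = ∑ t, c i j k p q t • b k t

section Coord

variable {ι : ℕ → Type} [∀ i, Fintype (ι i)] {K 𝒜 : Type*} [Field K] [CommRing 𝒜] [Algebra K 𝒜]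
  {c : ∀ i j k : ℕ, ι i → ι j → ι k → K} (X : TtnkCoord ι K 𝒜 c)

/-- the realization of coordinates of level `i` -/
def TtnkCoord.real (i : ℕ) : (ι i → K) →ₗ[K] 𝒜 := Fintype.linearCombination K (X.b i)

theorem TtnkCoord.real_apply (i : ℕ) (v : ι i → K) : X.real i v = ∑ p, v p • X.b i p :=
  Fintype.linearCombination_apply K _ v

theorem TtnkCoord.real_injective {i : ℕ} (h1 : 1 ≤ i) (h5 : i ≤ 5) :
    Function.Injective (X.real i) :=
  linearIndependent_iff_injective_fintypeLinearCombination.mp (X.li i h1 h5)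

theorem TtnkCoord.range_real {i : ℕ} (h1 : 1 ≤ i) (h5 : i ≤ 5) :
    LinearMap.range (X.real i) = X.lvl i := by
  rw [TtnkCoord.real, Fintype.range_linearCombination, X.span i h1 h5]

/-- the realization is multiplicative -/
theorem TtnkCoord.real_mu {i j k : ℕ} (hk : k = i + j) (hi : 1 ≤ i) (hj : 1 ≤ j) (h5 : k ≤ 5)
    (v : ι i → K) (w : ι j → K) :
    X.real k (fffmMu (c i j k) v w) = X.real i v * X.real j w := by
  rw [X.real_apply, X.real_apply, X.real_apply, Finset.sum_mul_sum]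
  have h1 : ∀ p q, (v p • X.b i p) * (w q • X.b j q) =
      ∑ t, (c i j k p q t * v p * w q) • X.b k t := by
    intro p q
    rw [smul_mul_smul_comm, X.mul i j k hk hi hj h5 p q, Finset.smul_sum]
    refine Finset.sum_congr rfl fun t _ => ?_
    rw [smul_smul]
    congr 1
    ring
  simp only [h1, fffmMu_apply, Finset.sum_smul]
  rw [Finset.sum_comm]
  refine Finset.sum_congr rfl fun p _ => ?_
  rw [Finset.sum_comm]

/-- the coordinate subspace `U` of level `i` is the subspace `V` of `𝒜` -/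
def TtnkRep (i : ℕ) (U : Submodule K (ι i → K)) (V : Submodule K 𝒜) : Prop :=
  U.map (X.real i) = V

theorem ttnk_rep_finrank {i : ℕ} (h1 : 1 ≤ i) (h5 : i ≤ 5) {U : Submodule K (ι i → K)}
    {V : Submodule K 𝒜} (h : TtnkRep X i U V) : finrank K U = finrank K V := by
  rw [← h]
  exact (Submodule.equivMapOfInjective (X.real i) (X.real_injective h1 h5) _).finrank_eq

theorem ttnk_rep_eq {i : ℕ} (h1 : 1 ≤ i) (h5 : i ≤ 5) {U U' : Submodule K (ι i → K)}
    {V : Submodule K 𝒜} (h : TtnkRep X i U V) (h' : TtnkRep X i U' V) : U = U' :=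
  Submodule.map_injective_of_injective (X.real_injective h1 h5) (h.trans h'.symm)

theorem ttnk_rep_top {i : ℕ} (h1 : 1 ≤ i) (h5 : i ≤ 5) : TtnkRep X i ⊤ (X.lvl i) := by
  rw [TtnkRep, Submodule.map_top, X.range_real h1 h5]

theorem ttnk_rep_le {i : ℕ} (h1 : 1 ≤ i) (h5 : i ≤ 5) {U : Submodule K (ι i → K)}
    {V : Submodule K 𝒜} (h : TtnkRep X i U V) : V ≤ X.lvl i := by
  rw [← h, ← X.range_real h1 h5]
  rintro _ ⟨v, -, rfl⟩
  exact LinearMap.mem_range_self _ v

theorem ttnk_rep_congr {i : ℕ} {U : Submodule K (ι i → K)} {V V' : Submodule K 𝒜}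
    (h : TtnkRep X i U V) (e : V = V') : TtnkRep X i U V' := e ▸ h

/-- **product step** -/
theorem ttnk_rep_mul {i j k : ℕ} (hk : k = i + j) (hi : 1 ≤ i) (hj : 1 ≤ j) (h5 : k ≤ 5)
    {U : Submodule K (ι i → K)} {U' : Submodule K (ι j → K)} {V V' : Submodule K 𝒜}
    (hU : TtnkRep X i U V) (hU' : TtnkRep X j U' V') :
    TtnkRep X k (tteMul (c i j k) U U') (V * V') := by
  rw [TtnkRep, ← hU, ← hU']
  apply le_antisymm
  · rw [Submodule.map_le_iff_le_comap]
    refine tteMul_le _ fun v hv w hw => ?_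
    rw [Submodule.mem_comap, X.real_mu hk hi hj h5]
    exact Submodule.mul_mem_mul (Submodule.mem_map_of_mem hv) (Submodule.mem_map_of_mem hw)
  · rw [Submodule.mul_le]
    rintro _ ⟨v, hv, rfl⟩ _ ⟨w, hw, rfl⟩
    rw [← X.real_mu hk hi hj h5]
    exact Submodule.mem_map_of_mem (tte_mu_mem_mul _ hv hw)

/-- **colon step**: the colon in coordinates is the colon in `𝒜`, cut by the level space -/
theorem ttnk_rep_colon {i j k : ℕ} (hk : k = i + j) (hi : 1 ≤ i) (hj : 1 ≤ j) (h5 : k ≤ 5)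
    {Cs : Submodule K (ι k → K)} {VC : Submodule K 𝒜} (hC : TtnkRep X k Cs VC)
    {Bs : Submodule K (ι j → K)} {VB : Submodule K 𝒜} (hB : TtnkRep X j Bs VB)
    {V : Submodule K 𝒜}
    (hV : ∀ f : 𝒜, f ∈ V ↔ f ∈ X.lvl i ∧ ∀ b ∈ VB, f * b ∈ VC) :
    TtnkRep X i (tteColon (c i j k) Cs Bs) V := by
  have hk1 : 1 ≤ k := by omega
  have hi5 : i ≤ 5 := by omega
  have hmemC : ∀ w : ι k → K, w ∈ Cs ↔ X.real k w ∈ VC := by
    intro w
    rw [← hC]
    constructor
    · intro hw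
      exact ⟨w, hw, rfl⟩
    · rintro ⟨w', hw', h⟩
      rwa [← X.real_injective hk1 h5 h]
  rw [TtnkRep]
  ext f
  rw [Submodule.mem_map, hV, ← X.range_real hi hi5]
  constructor
  · rintro ⟨v, hv, rfl⟩
    refine ⟨LinearMap.mem_range_self _ v, ?_⟩
    intro b hb
    rw [← hB] at hb
    obtain ⟨u, hu, rfl⟩ := hb
    rw [← X.real_mu hk hi hj h5]
    exact (hmemC _).mp (hv u hu)
  · rintro ⟨⟨v, rfl⟩, hf⟩
    refine ⟨v, ?_, rfl⟩
    intro w hw
    rw [hmemC, X.real_mu hk hi hj h5]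
    refine hf _ ?_
    rw [← hB]
    exact ⟨w, hw, rfl⟩

end Coord

end Fermat.Agent.TT
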