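import Mathlib
import Fermat.Agent.TT.Nodal.Space

/-!
# Program TT (S33), nodal closed fibre, part 3: Mumford multiplication and the colon on `C̃`

Owner: helper25.  Namespace `Fermat.Agent.TT`, prefix `ttnk`.

* `ttnk_mul_eq` : `L̃(A)·L̃(B) = L̃(A + B)` for `deg A_j ≥ 4g_j + s`, `deg B_j ≥ 2g_j - 1 + s` and
  `deg B_j ≥ 2g_j`  (`s = #ι` the number of nodes);
* `ttnk_colon`  : `f·L̃(B) ⊆ L̃(C) ↔ f ∈ L̃(C - B)` for `deg B_j ≥ 2g_j + s`, any `f : F₁ × F₂`.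
All divisors avoid the nodes.
-/

set_option autoImplicit false
set_option linter.unusedSectionVars false
set_option linter.unusedVariables false

noncomputable section

namespace Fermat.Agent.TT

open AlgebraicCurve Module Fermat.Agent.V.RR Fermat.Agent.G Fermat.Agent.FF Fermat.Agent.MW17

variable {K F₁ F₂ : Type*} [Field K] [Field F₁] [Field F₂] [Algebra K F₁] [Algebra K F₂]
  {g₁ g₂ : ℕ} {ι : Type*} [Fintype ι] (ν₁ : ι → Place K F₁) (ν₂ : ι → Place K F₂)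

/-- a matched pair with prescribed node values -/
theorem ttnk_exists_match (R₁ : V27RR K F₁ g₁) (R₂ : V27RR K F₂ g₂)
    (hdeg1₁ : ∀ v : Place K F₁, v.deg = 1) (hdeg1₂ : ∀ v : Place K F₂, v.deg = 1)
    (hν₁ : Function.Injective ν₁) (hν₂ : Function.Injective ν₂)
    {B₁ : Divisor K F₁} {B₂ : Divisor K F₂} (hB₁ : ∀ i, B₁ (ν₁ i) = 0) (hB₂ : ∀ i, B₂ (ν₂ i) = 0)
    (hd₁ : 2 * (g₁ : ℤ) - 1 + Fintype.card ι ≤ Divisor.degree B₁)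
    (hd₂ : 2 * (g₂ : ℤ) - 1 + Fintype.card ι ≤ Divisor.degree B₂) (c : ι → K) :
    ∃ b : F₁ × F₂, b ∈ ttnkL ν₁ ν₂ B₁ B₂ ∧
      ∀ i, GrdVal (ν₁ i) b.1 (c i) ∧ GrdVal (ν₂ i) b.2 (c i) := by
  obtain ⟨b₁, hb₁, hc₁⟩ := ttnk_interp ν₁ R₁ hdeg1₁ hν₁ hB₁ hd₁ c
  obtain ⟨b₂, hb₂, hc₂⟩ := ttnk_interp ν₂ R₂ hdeg1₂ hν₂ hB₂ hd₂ c
  exact ⟨(b₁, b₂), ⟨hb₁, hb₂, fun i => ⟨c i, hc₁ i, hc₂ i⟩⟩, fun i => ⟨hc₁ i, hc₂ i⟩⟩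

/-- a function on the first component vanishing at the nodes, extended by zero -/
theorem ttnk_inl_mem (hν₁ : Function.Injective ν₁) {A₁ : Divisor K F₁} {A₂ : Divisor K F₂}
    (hA₁ : ∀ i, A₁ (ν₁ i) = 0) {x : F₁} (hx : x ∈ riemannRochSpace (A₁ - ttnkN ν₁)) :
    ((x, 0) : F₁ × F₂) ∈ ttnkL ν₁ ν₂ A₁ A₂ := by
  have hxA : x ∈ riemannRochSpace A₁ := ffkm_mono (ttnk_sub_le ν₁ A₁) hx
  have h0 := (ttnk_mem_sub_iff ν₁ hν₁ hA₁ hxA).mpr hx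
  exact ⟨hxA, Submodule.zero_mem _, fun i => ⟨0, h0 i, ttnk_val_zero _⟩⟩

theorem ttnk_inr_mem (hν₂ : Function.Injective ν₂) {A₁ : Divisor K F₁} {A₂ : Divisor K F₂}
    (hA₂ : ∀ i, A₂ (ν₂ i) = 0) {x : F₂} (hx : x ∈ riemannRochSpace (A₂ - ttnkN ν₂)) :
    ((0, x) : F₁ × F₂) ∈ ttnkL ν₁ ν₂ A₁ A₂ := by
  have hxA : x ∈ riemannRochSpace A₂ := ffkm_mono (ttnk_sub_le ν₂ A₂) hx
  have h0 := (ttnk_mem_sub_iff ν₂ hν₂ hA₂ hxA).mpr hx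
  exact ⟨Submodule.zero_mem _, hxA, fun i => ⟨0, ttnk_val_zero _, h0 i⟩⟩

/-- an element of `L̃(A)` with vanishing node values has both components in `L(A_j - N_j)` -/
theorem ttnk_fst_mem_sub (hν₁ : Function.Injective ν₁) {A₁ : Divisor K F₁} {A₂ : Divisor K F₂}
    (hA₁ : ∀ i, A₁ (ν₁ i) = 0) {f : F₁ × F₂} (hf : f ∈ ttnkL ν₁ ν₂ A₁ A₂)
    (h0 : ∀ i, GrdVal (ν₂ i) f.2 0) : f.1 ∈ riemannRochSpace (A₁ - ttnkN ν₁) := by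
  refine (ttnk_mem_sub_iff ν₁ hν₁ hA₁ hf.1).mp fun i => ?_
  obtain ⟨c, hc1, hc2⟩ := hf.2.2 i
  rwa [grdg_val_unique (ν₂ i) hc2 (h0 i)] at hc1

theorem ttnk_snd_mem_sub (hν₂ : Function.Injective ν₂) {A₁ : Divisor K F₁} {A₂ : Divisor K F₂}
    (hA₂ : ∀ i, A₂ (ν₂ i) = 0) {f : F₁ × F₂} (hf : f ∈ ttnkL ν₁ ν₂ A₁ A₂)
    (h0 : ∀ i, GrdVal (ν₁ i) f.1 0) : f.2 ∈ riemannRochSpace (A₂ - ttnkN ν₂) := by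
  refine (ttnk_mem_sub_iff ν₂ hν₂ hA₂ hf.2.1).mp fun i => ?_
  obtain ⟨c, hc1, hc2⟩ := hf.2.2 i
  rwa [grdg_val_unique (ν₁ i) hc1 (h0 i)] at hc2

section Mul

variable [Infinite K] (R₁ : V27RR K F₁ g₁) (R₂ : V27RR K F₂ g₂)
  (hdeg1₁ : ∀ v : Place K F₁, v.deg = 1) (hdeg1₂ : ∀ v : Place K F₂, v.deg = 1)
  (hν₁ : Function.Injective ν₁) (hν₂ : Function.Injective ν₂)

include R₁ R₂ hdeg1₁ hdeg1₂ hν₁ hν₂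

/-- the first component of the product: `L(A₁ + B₁ - N₁) × 0 ⊆ L̃(A)·L̃(B)` -/
theorem ttnk_inl_mem_mul {A₁ B₁ : Divisor K F₁} {A₂ B₂ : Divisor K F₂}
    (hA₁ : ∀ i, A₁ (ν₁ i) = 0) (hB₁ : ∀ i, B₁ (ν₁ i) = 0) (hB₂ : ∀ i, B₂ (ν₂ i) = 0)
    (hdA₁ : 4 * (g₁ : ℤ) + Fintype.card ι ≤ Divisor.degree A₁)
    (hdB₁ : 2 * (g₁ : ℤ) ≤ Divisor.degree B₁)
    (hdB₂ : 2 * (g₂ : ℤ) - 1 + Fintype.card ι ≤ Divisor.degree B₂)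
    {u : F₁} (hu : u ∈ riemannRochSpace (A₁ + B₁ - ttnkN ν₁)) :
    ((u, 0) : F₁ × F₂) ∈ ttnkL ν₁ ν₂ A₁ A₂ * ttnkL ν₁ ν₂ B₁ B₂ := by
  have hmul : riemannRochSpace (A₁ - ttnkN ν₁) * riemannRochSpace B₁ =
      riemannRochSpace (A₁ + B₁ - ttnkN ν₁) := by
    rw [ffkm_mul_eq R₁ hdeg1₁ (A := A₁ - ttnkN ν₁) (B := B₁)
      (by rw [map_sub, ttnkN_degree ν₁ hdeg1₁]; linarith) hdB₁]
    congr 1
    abel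
  rw [← hmul] at hu
  have hle : riemannRochSpace (A₁ - ttnkN ν₁) * riemannRochSpace B₁ ≤
      (ttnkL ν₁ ν₂ A₁ A₂ * ttnkL ν₁ ν₂ B₁ B₂).comap (LinearMap.inl K F₁ F₂) := by
    rw [Submodule.mul_le]
    intro x hx y hy
    rw [Submodule.mem_comap, LinearMap.inl_apply]
    -- extend `y` to a matched pair
    have hvals : ∀ i, ∃ c : K, GrdVal (ν₁ i) y c := fun i =>
      ttnk_val_exists_of_mem (hdeg1₁ (ν₁ i)) (hB₁ i).le hy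
    choose c hc using hvals
    obtain ⟨y₂, hy₂, hc₂⟩ := ttnk_interp ν₂ R₂ hdeg1₂ hν₂ hB₂ hdB₂ c
    have h1 : ((x, 0) : F₁ × F₂) ∈ ttnkL ν₁ ν₂ A₁ A₂ := ttnk_inl_mem ν₁ ν₂ hν₁ hA₁ hx
    have h2 : ((y, y₂) : F₁ × F₂) ∈ ttnkL ν₁ ν₂ B₁ B₂ :=
      ⟨hy, hy₂, fun i => ⟨c i, hc i, hc₂ i⟩⟩
    have := Submodule.mul_mem_mul h1 h2
    rwa [Prod.mk_mul_mk, zero_mul] at this
  exact hle hu

/-- the second component of the product: `0 × L(A₂ + B₂ - N₂) ⊆ L̃(A)·L̃(B)` -/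
theorem ttnk_inr_mem_mul {A₁ B₁ : Divisor K F₁} {A₂ B₂ : Divisor K F₂}
    (hA₂ : ∀ i, A₂ (ν₂ i) = 0) (hB₁ : ∀ i, B₁ (ν₁ i) = 0) (hB₂ : ∀ i, B₂ (ν₂ i) = 0)
    (hdA₂ : 4 * (g₂ : ℤ) + Fintype.card ι ≤ Divisor.degree A₂)
    (hdB₂ : 2 * (g₂ : ℤ) ≤ Divisor.degree B₂)
    (hdB₁ : 2 * (g₁ : ℤ) - 1 + Fintype.card ι ≤ Divisor.degree B₁)
    {u : F₂} (hu : u ∈ riemannRochSpace (A₂ + B₂ - ttnkN ν₂)) :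
    ((0, u) : F₁ × F₂) ∈ ttnkL ν₁ ν₂ A₁ A₂ * ttnkL ν₁ ν₂ B₁ B₂ := by
  have hmul : riemannRochSpace (A₂ - ttnkN ν₂) * riemannRochSpace B₂ =
      riemannRochSpace (A₂ + B₂ - ttnkN ν₂) := by
    rw [ffkm_mul_eq R₂ hdeg1₂ (A := A₂ - ttnkN ν₂) (B := B₂)
      (by rw [map_sub, ttnkN_degree ν₂ hdeg1₂]; linarith) hdB₂]
    congr 1
    abel
  rw [← hmul] at hu
  have hle : riemannRochSpace (A₂ - ttnkN ν₂) * riemannRochSpace B₂ ≤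
      (ttnkL ν₁ ν₂ A₁ A₂ * ttnkL ν₁ ν₂ B₁ B₂).comap (LinearMap.inr K F₁ F₂) := by
    rw [Submodule.mul_le]
    intro x hx y hy
    rw [Submodule.mem_comap, LinearMap.inr_apply]
    have hvals : ∀ i, ∃ c : K, GrdVal (ν₂ i) y c := fun i =>
      ttnk_val_exists_of_mem (hdeg1₂ (ν₂ i)) (hB₂ i).le hy
    choose c hc using hvals
    obtain ⟨y₁, hy₁, hc₁⟩ := ttnk_interp ν₁ R₁ hdeg1₁ hν₁ hB₁ hdB₁ c
    have h1 : ((0, x) : F₁ × F₂) ∈ ttnkL ν₁ ν₂ A₁ A₂ := ttnk_inr_mem ν₁ ν₂ hν₂ hA₂ hx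
    have h2 : ((y₁, y) : F₁ × F₂) ∈ ttnkL ν₁ ν₂ B₁ B₂ :=
      ⟨hy₁, hy, fun i => ⟨c i, hc₁ i, hc i⟩⟩
    have := Submodule.mul_mem_mul h1 h2
    rwa [Prod.mk_mul_mk, zero_mul] at this
  exact hle hu

/-- **Mumford multiplication on the nodal curve**: `L̃(A)·L̃(B) = L̃(A + B)` -/
theorem ttnk_mul_eq {A₁ B₁ : Divisor K F₁} {A₂ B₂ : Divisor K F₂}
    (hA₁ : ∀ i, A₁ (ν₁ i) = 0) (hA₂ : ∀ i, A₂ (ν₂ i) = 0)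
    (hB₁ : ∀ i, B₁ (ν₁ i) = 0) (hB₂ : ∀ i, B₂ (ν₂ i) = 0)
    (hdA₁ : 4 * (g₁ : ℤ) + Fintype.card ι ≤ Divisor.degree A₁)
    (hdA₂ : 4 * (g₂ : ℤ) + Fintype.card ι ≤ Divisor.degree A₂)
    (hdB₁ : 2 * (g₁ : ℤ) - 1 + Fintype.card ι ≤ Divisor.degree B₁)
    (hdB₂ : 2 * (g₂ : ℤ) - 1 + Fintype.card ι ≤ Divisor.degree B₂)
    (hdB₁' : 2 * (g₁ : ℤ) ≤ Divisor.degree B₁) (hdB₂' : 2 * (g₂ : ℤ) ≤ Divisor.degree B₂) :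
    ttnkL ν₁ ν₂ A₁ A₂ * ttnkL ν₁ ν₂ B₁ B₂ = ttnkL ν₁ ν₂ (A₁ + B₁) (A₂ + B₂) := by
  refine le_antisymm (ttnk_mul_le ν₁ ν₂ A₁ B₁ A₂ B₂) ?_
  intro h hh
  have hAB₁ : ∀ i, (A₁ + B₁) (ν₁ i) = 0 := fun i => by
    rw [Finsupp.add_apply, hA₁ i, hB₁ i, add_zero]
  have hAB₂ : ∀ i, (A₂ + B₂) (ν₂ i) = 0 := fun i => by
    rw [Finsupp.add_apply, hA₂ i, hB₂ i, add_zero]
  have hg₁ : (0 : ℤ) ≤ g₁ := Int.natCast_nonneg _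
  have hg₂ : (0 : ℤ) ≤ g₂ := Int.natCast_nonneg _
  -- the node values of `h`
  choose c hc1 hc2 using hh.2.2
  -- `a` with node values `1`, `b` with node values `c`
  obtain ⟨a, ha, hav⟩ := ttnk_exists_match ν₁ ν₂ R₁ R₂ hdeg1₁ hdeg1₂ hν₁ hν₂ hA₁ hA₂
    (by linarith) (by linarith) (fun _ => (1 : K))
  obtain ⟨b, hb, hbv⟩ := ttnk_exists_match ν₁ ν₂ R₁ R₂ hdeg1₁ hdeg1₂ hν₁ hν₂ hB₁ hB₂ hdB₁ hdB₂ c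
  have hab : a * b ∈ ttnkL ν₁ ν₂ A₁ A₂ * ttnkL ν₁ ν₂ B₁ B₂ := Submodule.mul_mem_mul ha hb
  have hab' : a * b ∈ ttnkL ν₁ ν₂ (A₁ + B₁) (A₂ + B₂) := ttnk_mul_mem ν₁ ν₂ ha hb
  set d : F₁ × F₂ := h - a * b with hd
  have hdmem : d ∈ ttnkL ν₁ ν₂ (A₁ + B₁) (A₂ + B₂) := Submodule.sub_mem _ hh hab'
  have hd1 : ∀ i, GrdVal (ν₁ i) d.1 0 := fun i => by
    have h1 := grdg_val_mul (ν₁ i) (hav i).1 (hbv i).1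
    have h2 := ttnk_val_sub (ν₁ i) (hc1 i) h1
    rwa [one_mul, sub_self] at h2
  have hd2 : ∀ i, GrdVal (ν₂ i) d.2 0 := fun i => by
    have h1 := grdg_val_mul (ν₂ i) (hav i).2 (hbv i).2
    have h2 := ttnk_val_sub (ν₂ i) (hc2 i) h1
    rwa [one_mul, sub_self] at h2
  have hu1 := ttnk_fst_mem_sub ν₁ ν₂ hν₁ hAB₁ hdmem hd2
  have hu2 := ttnk_snd_mem_sub ν₁ ν₂ hν₂ hAB₂ hdmem hd1
  have hm1 := ttnk_inl_mem_mul ν₁ ν₂ R₁ R₂ hdeg1₁ hdeg1₂ hν₁ hν₂ (A₂ := A₂) hA₁ hB₁ hB₂ hdA₁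
    hdB₁' hdB₂ hu1
  have hm2 := ttnk_inr_mem_mul ν₁ ν₂ R₁ R₂ hdeg1₁ hdeg1₂ hν₁ hν₂ (A₁ := A₁) hA₂ hB₁ hB₂ hdA₂
    hdB₂' hdB₁ hu2
  have hsum : h = a * b + ((d.1, 0) + (0, d.2)) := by
    have e : ((d.1, 0) + (0, d.2) : F₁ × F₂) = d := by
      ext
      · show d.1 + 0 = d.1
        rw [add_zero]
      · show 0 + d.2 = d.2
        rw [zero_add]
    rw [e, hd]
    ring
  rw [hsum]
  exact Submodule.add_mem _ hab (Submodule.add_mem _ hm1 hm2)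

/-- **the colon on the nodal curve**: `f·L̃(B) ⊆ L̃(C) ↔ f ∈ L̃(C - B)` -/
theorem ttnk_colon {B₁ C₁ : Divisor K F₁} {B₂ C₂ : Divisor K F₂}
    (hB₁ : ∀ i, B₁ (ν₁ i) = 0) (hB₂ : ∀ i, B₂ (ν₂ i) = 0)
    (hC₁ : ∀ i, C₁ (ν₁ i) = 0) (hC₂ : ∀ i, C₂ (ν₂ i) = 0)
    (hdB₁ : 2 * (g₁ : ℤ) + Fintype.card ι ≤ Divisor.degree B₁)
    (hdB₂ : 2 * (g₂ : ℤ) + Fintype.card ι ≤ Divisor.degree B₂) (f : F₁ × F₂) :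
    (∀ b ∈ ttnkL ν₁ ν₂ B₁ B₂, f * b ∈ ttnkL ν₁ ν₂ C₁ C₂) ↔
      f ∈ ttnkL ν₁ ν₂ (C₁ - B₁) (C₂ - B₂) := by
  constructor
  · intro h
    have hCB₁ : ∀ i, (C₁ - B₁) (ν₁ i) = 0 := fun i => by
      rw [Finsupp.sub_apply, hC₁ i, hB₁ i, sub_zero]
    have hCB₂ : ∀ i, (C₂ - B₂) (ν₂ i) = 0 := fun i => by
      rw [Finsupp.sub_apply, hC₂ i, hB₂ i, sub_zero]
    -- the components
    have hf1 : f.1 ∈ riemannRochSpace (C₁ - B₁) := by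
      have e : C₁ - B₁ = (C₁ - ttnkN ν₁) - (B₁ - ttnkN ν₁) := by abel
      rw [e, ← ffkm_colon R₁ hdeg1₁ (B := B₁ - ttnkN ν₁)
        (by rw [map_sub, ttnkN_degree ν₁ hdeg1₁]; linarith)]
      intro b hb
      have h1 := h _ (ttnk_inl_mem ν₁ ν₂ hν₁ (A₂ := B₂) hB₁ hb)
      have h2 := ttnk_fst_mem_sub ν₁ ν₂ hν₁ hC₁ h1 (fun i => by
        show GrdVal (ν₂ i) (f.2 * 0) 0
        rw [mul_zero]
        exact ttnk_val_zero _)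
      exact h2
    have hf2 : f.2 ∈ riemannRochSpace (C₂ - B₂) := by
      have e : C₂ - B₂ = (C₂ - ttnkN ν₂) - (B₂ - ttnkN ν₂) := by abel
      rw [e, ← ffkm_colon R₂ hdeg1₂ (B := B₂ - ttnkN ν₂)
        (by rw [map_sub, ttnkN_degree ν₂ hdeg1₂]; linarith)]
      intro b hb
      have h1 := h _ (ttnk_inr_mem ν₁ ν₂ hν₂ (A₁ := B₁) hB₂ hb)
      have h2 := ttnk_snd_mem_sub ν₁ ν₂ hν₂ hC₂ h1 (fun i => by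
        show GrdVal (ν₁ i) (f.1 * 0) 0
        rw [mul_zero]
        exact ttnk_val_zero _)
      exact h2
    refine ⟨hf1, hf2, fun i => ?_⟩
    -- the node values
    obtain ⟨b, hb, hbv⟩ := ttnk_exists_match ν₁ ν₂ R₁ R₂ hdeg1₁ hdeg1₂ hν₁ hν₂ hB₁ hB₂
      (by linarith) (by linarith) (fun _ => (1 : K))
    obtain ⟨a₁, ha₁⟩ := ttnk_val_exists_of_mem (hdeg1₁ (ν₁ i)) (hCB₁ i).le hf1
    obtain ⟨a₂, ha₂⟩ := ttnk_val_exists_of_mem (hdeg1₂ (ν₂ i)) (hCB₂ i).le hf2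
    obtain ⟨c, hc1, hc2⟩ := (h b hb).2.2 i
    have e1 := grdg_val_unique (ν₁ i) hc1 (grdg_val_mul (ν₁ i) ha₁ (hbv i).1)
    have e2 := grdg_val_unique (ν₂ i) hc2 (grdg_val_mul (ν₂ i) ha₂ (hbv i).2)
    rw [mul_one] at e1 e2
    refine ⟨a₁, ha₁, ?_⟩
    rw [← e1, e2]
    exact ha₂
  · intro hf b hb
    have := ttnk_mul_mem ν₁ ν₂ hf hb
    rwa [sub_add_cancel, sub_add_cancel] at this

end Mul

end Fermat.Agent.TT
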