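import Mathlib
import Fermat.Agent.TT.Nodal.KM

/-!
# Program TT (S33), nodal closed fibre, part 5: general effective divisors with `L̃ = K·1`

Owner: helper25.  Namespace `Fermat.Agent.TT`, prefix `ttnk`.

* `ttnk_exists_general_sub` : `D ≥ 0` of degree `g - 1 + s` off a finite set with `L(D - N) = 0`
  (`N` the node divisor, `s = #ι ≥ 1`);
* `ttnk_exists_general_one` : `D ≥ 0` of degree `g` off a finite set with `l(D) = 1`;
* `ttnk_L_eq_span_one`      : `D₁ ≥ 0`, `D₂ ≥ 0` off the nodes, `L(D₁ - N₁) = 0`, `l(D₂) = 1`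
  ⟹ `L̃(D₁, D₂) = K·1` (and the mirror statement `ttnk_L_eq_span_one'`);
* `ttnk_exists_origin`      : the two divisors `D̃₀`, `X̃₀` of the closed-fibre computation `0 + 0 = 0`.
-/

set_option autoImplicit false
set_option linter.unusedSectionVars false
set_option linter.unusedVariables false

noncomputable section

namespace Fermat.Agent.TT

open AlgebraicCurve Module Fermat.Agent.V.RR Fermat.Agent.G Fermat.Agent.FF Fermat.Agent.MW17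

section One

variable {K F : Type*} [Field K] [Field F] [Algebra K F] {g : ℕ} {ι : Type*} [Fintype ι]
  (ν : ι → Place K F)

theorem ttnk_eq_bot_of_finrank (R : V27RR K F g) {D : Divisor K F}
    (h : finrank K (riemannRochSpace D) = 0) : riemannRochSpace D = ⊥ := by
  have : Module.Finite K (riemannRochSpace D) := R.finL D
  exact Submodule.finrank_eq_zero.mp h

/-- a general effective divisor `D` of degree `g - 1 + s` with `L(D - N) = 0` -/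
theorem ttnk_exists_general_sub [Infinite K] (R : V27RR K F g)
    (hdeg1 : ∀ v : Place K F, v.deg = 1) (hs : 1 ≤ Fintype.card ι) (T : Finset (Place K F)) :
    ∃ D : Divisor K F, 0 ≤ D ∧ Divisor.degree D = (g : ℤ) - 1 + Fintype.card ι ∧
      (∀ P ∈ T, D P = 0) ∧ (∀ i, D (ν i) = 0) ∧ (∀ P, D P ≤ 1) ∧
      riemannRochSpace (D - ttnkN ν) = ⊥ := by
  classical
  obtain ⟨W, hW, -, -, hRR⟩ := R.can
  have hNdeg := ttnkN_degree ν hdeg1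
  have hs' : (1 : ℤ) ≤ Fintype.card ι := by exact_mod_cast hs
  -- `l(W + N) = g - 1 + s`
  have hneg : riemannRochSpace (W - (W + ttnkN ν)) = ⊥ := R.neg _ (by
    rw [map_sub, map_add, hNdeg]
    linarith)
  have hl : (finrank K (riemannRochSpace (W + ttnkN ν)) : ℤ) = (g : ℤ) - 1 + Fintype.card ι := by
    rw [hRR (W + ttnkN ν), hneg, finrank_bot, map_add, hW, hNdeg]
    push_cast
    ring
  set r : ℕ := g + Fintype.card ι - 1 with hr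
  have hrl : finrank K (riemannRochSpace (W + ttnkN ν)) = r := by omega
  obtain ⟨E, hE0, hEdeg, hET, hE1, hEl⟩ := ffkg_general_position R hdeg1
    (fun _ : Unit => W + ttnkN ν) (T ∪ Finset.univ.image ν) r (fun _ => hrl.ge)
  have hEl' : finrank K (riemannRochSpace (W + ttnkN ν - E)) = 0 := by
    have := hEl ()
    omega
  refine ⟨E, hE0, ?_, fun P hP => hET P (Finset.mem_union_left _ hP),
    fun i => hET _ (Finset.mem_union_right _ (Finset.mem_image_of_mem ν (Finset.mem_univ i))),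
    hE1, ?_⟩
  · rw [hEdeg, hr]
    omega
  · apply ttnk_eq_bot_of_finrank R
    have h1 := hRR (E - ttnkN ν)
    have e : W - (E - ttnkN ν) = W + ttnkN ν - E := by abel
    rw [e, hEl', map_sub, hEdeg, hNdeg] at h1
    have : (r : ℤ) = (g : ℤ) + Fintype.card ι - 1 := by
      rw [hr]
      omega
    rw [this] at h1
    have h2 : (finrank K (riemannRochSpace (E - ttnkN ν)) : ℤ) = 0 := by
      rw [h1]
      push_cast
      ring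
    exact_mod_cast h2

/-- a general effective divisor of degree `g` with `l(D) = 1` -/
theorem ttnk_exists_general_one [Infinite K] (R : V27RR K F g)
    (hdeg1 : ∀ v : Place K F, v.deg = 1) (T : Finset (Place K F)) :
    ∃ D : Divisor K F, 0 ≤ D ∧ Divisor.degree D = (g : ℤ) ∧
      (∀ P ∈ T, D P = 0) ∧ (∀ P, D P ≤ 1) ∧ finrank K (riemannRochSpace D) = 1 := by
  classical
  obtain ⟨W, hW, hWl, -, hRR⟩ := R.can
  obtain ⟨E, hE0, hEdeg, hET, hE1, hEl⟩ := ffkg_general_position R hdeg1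
    (fun _ : Unit => W) T g (fun _ => hWl.ge)
  have hEl' : finrank K (riemannRochSpace (W - E)) = 0 := by
    have := hEl ()
    omega
  refine ⟨E, hE0, hEdeg, hET, hE1, ?_⟩
  have h1 := hRR E
  rw [hEl', hEdeg] at h1
  have h2 : (finrank K (riemannRochSpace E) : ℤ) = 1 := by
    rw [h1]
    push_cast
    ring
  exact_mod_cast h2

end One

section Two

variable {K F₁ F₂ : Type*} [Field K] [Field F₁] [Field F₂] [Algebra K F₁] [Algebra K F₂]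
  {g₁ g₂ : ℕ} {ι : Type*} [Fintype ι] (ν₁ : ι → Place K F₁) (ν₂ : ι → Place K F₂)

/-- `L̃(D₁, D₂) = K·1` when `L(D₁ - N₁) = 0` and `l(D₂) = 1` -/
theorem ttnk_L_eq_span_one (R₂ : V27RR K F₂ g₂) (hν₁ : Function.Injective ν₁)
    {D₁ : Divisor K F₁} {D₂ : Divisor K F₂} (h₁ : 0 ≤ D₁) (h₂ : 0 ≤ D₂)
    (hD₁ : ∀ i, D₁ (ν₁ i) = 0)
    (hsub : riemannRochSpace (D₁ - ttnkN ν₁) = ⊥)
    (hone : finrank K (riemannRochSpace D₂) = 1) :
    ttnkL ν₁ ν₂ D₁ D₂ = Submodule.span K {(1 : F₁ × F₂)} := by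
  have h1mem := ttnk_one_mem ν₁ ν₂ h₁ h₂
  apply le_antisymm
  · intro f hf
    have hspan := ffkm_span_of_finrank_one R₂ hone one_ne_zero h1mem.2.1
    have hf2 := hf.2.1
    rw [hspan, Submodule.mem_span_singleton] at hf2
    obtain ⟨a, ha⟩ := hf2
    set d : F₁ × F₂ := f - a • (1 : F₁ × F₂) with hd
    have hdmem : d ∈ ttnkL ν₁ ν₂ D₁ D₂ :=
      Submodule.sub_mem _ hf (Submodule.smul_mem _ a h1mem)
    have hd2 : d.2 = 0 := by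
      show f.2 - a • (1 : F₂) = 0
      rw [ha, sub_self]
    have hd1 := ttnk_fst_mem_sub ν₁ ν₂ hν₁ hD₁ hdmem (fun i => by
      rw [hd2]
      exact ttnk_val_zero _)
    rw [hsub, Submodule.mem_bot] at hd1
    have hd0 : d = 0 := Prod.ext hd1 hd2
    rw [Submodule.mem_span_singleton]
    exact ⟨a, (sub_eq_zero.mp hd0).symm⟩
  · rw [Submodule.span_le, Set.singleton_subset_iff]
    exact h1mem

/-- `L̃(X₁, X₂) = K·1` when `l(X₁) = 1` and `L(X₂ - N₂) = 0` -/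
theorem ttnk_L_eq_span_one' (R₁ : V27RR K F₁ g₁) (hν₂ : Function.Injective ν₂)
    {X₁ : Divisor K F₁} {X₂ : Divisor K F₂} (h₁ : 0 ≤ X₁) (h₂ : 0 ≤ X₂)
    (hX₂ : ∀ i, X₂ (ν₂ i) = 0)
    (hsub : riemannRochSpace (X₂ - ttnkN ν₂) = ⊥)
    (hone : finrank K (riemannRochSpace X₁) = 1) :
    ttnkL ν₁ ν₂ X₁ X₂ = Submodule.span K {(1 : F₁ × F₂)} := by
  have h1mem := ttnk_one_mem ν₁ ν₂ h₁ h₂
  apply le_antisymm
  · intro f hf
    have hspan := ffkm_span_of_finrank_one R₁ hone one_ne_zero h1mem.1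
    have hf1 := hf.1
    rw [hspan, Submodule.mem_span_singleton] at hf1
    obtain ⟨a, ha⟩ := hf1
    set d : F₁ × F₂ := f - a • (1 : F₁ × F₂) with hd
    have hdmem : d ∈ ttnkL ν₁ ν₂ X₁ X₂ :=
      Submodule.sub_mem _ hf (Submodule.smul_mem _ a h1mem)
    have hd1 : d.1 = 0 := by
      show f.1 - a • (1 : F₁) = 0
      rw [ha, sub_self]
    have hd2 := ttnk_snd_mem_sub ν₁ ν₂ hν₂ hX₂ hdmem (fun i => by
      rw [hd1]
      exact ttnk_val_zero _)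
    rw [hsub, Submodule.mem_bot] at hd2
    have hd0 : d = 0 := Prod.ext hd1 hd2
    rw [Submodule.mem_span_singleton]
    exact ⟨a, (sub_eq_zero.mp hd0).symm⟩
  · rw [Submodule.span_le, Set.singleton_subset_iff]
    exact h1mem

/-- **the divisors of the origin computation**: `D̃₀ = (D₁, D₂)` of bidegree `(g₁ - 1 + s, g₂)` and
`X̃₀ = (X₁, X₂)` of bidegree `(g₁, g₂ - 1 + s)`, effective, off given finite sets and off the nodes,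
with `L̃(D̃₀) = L̃(X̃₀) = K·1`. -/
theorem ttnk_exists_origin [Infinite K] (R₁ : V27RR K F₁ g₁) (R₂ : V27RR K F₂ g₂)
    (hdeg1₁ : ∀ v : Place K F₁, v.deg = 1) (hdeg1₂ : ∀ v : Place K F₂, v.deg = 1)
    (hν₁ : Function.Injective ν₁) (hν₂ : Function.Injective ν₂) (hs : 1 ≤ Fintype.card ι)
    (T₁ : Finset (Place K F₁)) (T₂ : Finset (Place K F₂)) :
    ∃ (D₁ X₁ : Divisor K F₁) (D₂ X₂ : Divisor K F₂),
      0 ≤ D₁ ∧ 0 ≤ X₁ ∧ 0 ≤ D₂ ∧ 0 ≤ X₂ ∧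
      Divisor.degree D₁ = (g₁ : ℤ) - 1 + Fintype.card ι ∧ Divisor.degree X₁ = (g₁ : ℤ) ∧
      Divisor.degree D₂ = (g₂ : ℤ) ∧ Divisor.degree X₂ = (g₂ : ℤ) - 1 + Fintype.card ι ∧
      (∀ P ∈ T₁, D₁ P = 0) ∧ (∀ P ∈ T₁, X₁ P = 0) ∧ (∀ P ∈ T₂, D₂ P = 0) ∧ (∀ P ∈ T₂, X₂ P = 0) ∧
      (∀ i, D₁ (ν₁ i) = 0) ∧ (∀ i, X₁ (ν₁ i) = 0) ∧ (∀ i, D₂ (ν₂ i) = 0) ∧ (∀ i, X₂ (ν₂ i) = 0) ∧
      ttnkL ν₁ ν₂ D₁ D₂ = Submodule.span K {(1 : F₁ × F₂)} ∧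
      ttnkL ν₁ ν₂ X₁ X₂ = Submodule.span K {(1 : F₁ × F₂)} := by
  classical
  obtain ⟨D₁, hD₁0, hD₁deg, hD₁T, hD₁ν, -, hD₁sub⟩ := ttnk_exists_general_sub ν₁ R₁ hdeg1₁ hs T₁
  obtain ⟨X₂, hX₂0, hX₂deg, hX₂T, hX₂ν, -, hX₂sub⟩ := ttnk_exists_general_sub ν₂ R₂ hdeg1₂ hs T₂
  obtain ⟨X₁, hX₁0, hX₁deg, hX₁T, -, hX₁one⟩ :=
    ttnk_exists_general_one R₁ hdeg1₁ (T₁ ∪ Finset.univ.image ν₁)
  obtain ⟨D₂, hD₂0, hD₂deg, hD₂T, -, hD₂one⟩ :=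
    ttnk_exists_general_one R₂ hdeg1₂ (T₂ ∪ Finset.univ.image ν₂)
  refine ⟨D₁, X₁, D₂, X₂, hD₁0, hX₁0, hD₂0, hX₂0, hD₁deg, hX₁deg, hD₂deg, hX₂deg, hD₁T,
    fun P hP => hX₁T P (Finset.mem_union_left _ hP),
    fun P hP => hD₂T P (Finset.mem_union_left _ hP), hX₂T, hD₁ν,
    fun i => hX₁T _ (Finset.mem_union_right _ (Finset.mem_image_of_mem ν₁ (Finset.mem_univ i))),
    fun i => hD₂T _ (Finset.mem_union_right _ (Finset.mem_image_of_mem ν₂ (Finset.mem_univ i))),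
    hX₂ν, ?_, ?_⟩
  · exact ttnk_L_eq_span_one ν₁ ν₂ R₂ hν₁ hD₁0 hD₂0 hD₁ν hD₁sub hD₂one
  · exact ttnk_L_eq_span_one' ν₁ ν₂ R₁ hν₂ hX₁0 hX₂0 hX₂ν hX₂sub hX₁one

/-- `L(D - N) = 0` when `l(D) = 1`, `D ≥ 0` and there is at least one node -/
theorem ttnk_sub_eq_bot_of_one {F : Type*} [Field F] [Algebra K F] {g : ℕ} (R : V27RR K F g)
    (ν : ι → Place K F) (hν : Function.Injective ν) [Nonempty ι] {D : Divisor K F} (h0 : 0 ≤ D)
    (hDν : ∀ i, D (ν i) = 0) (hone : finrank K (riemannRochSpace D) = 1) :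
    riemannRochSpace (D - ttnkN ν) = ⊥ := by
  have h1mem : (1 : F) ∈ riemannRochSpace D := by
    rw [ffkm_mem_iff one_ne_zero]
    intro v
    rw [Place.ord_one]
    have := Finsupp.le_def.mp h0 v
    rw [Finsupp.zero_apply] at this
    omega
  have hspan := ffkm_span_of_finrank_one R hone one_ne_zero h1mem
  rw [eq_bot_iff]
  intro f hf
  have hfD : f ∈ riemannRochSpace D := ffkm_mono (ttnk_sub_le ν D) hf
  have hf0 := (ttnk_mem_sub_iff ν hν hDν hfD).mpr hf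
  rw [hspan, Submodule.mem_span_singleton] at hfD
  obtain ⟨a, rfl⟩ := hfD
  obtain ⟨i⟩ := ‹Nonempty ι›
  have h1 : GrdVal (ν i) (a • (1 : F)) (a * 1) := ttnk_val_smul (ν i) a (ttnk_val_one (ν i))
  have := grdg_val_unique (ν i) h1 (hf0 i)
  rw [mul_one] at this
  rw [this, zero_smul]
  exact Submodule.zero_mem _

/-- **the divisors of the origin computation, full form**: as `ttnk_exists_origin`, with `D_j`,
`X_j` REDUCED (`≤ 1` at every place) and the vanishing `L(D_j - N_j) = L(X_j - N_j) = 0` on both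
components (helper29's (G1)-(G3)). -/
theorem ttnk_exists_origin_full [Infinite K] (R₁ : V27RR K F₁ g₁) (R₂ : V27RR K F₂ g₂)
    (hdeg1₁ : ∀ v : Place K F₁, v.deg = 1) (hdeg1₂ : ∀ v : Place K F₂, v.deg = 1)
    (hν₁ : Function.Injective ν₁) (hν₂ : Function.Injective ν₂) (hs : 1 ≤ Fintype.card ι)
    (T₁ : Finset (Place K F₁)) (T₂ : Finset (Place K F₂)) :
    ∃ (D₁ X₁ : Divisor K F₁) (D₂ X₂ : Divisor K F₂),
      (0 ≤ D₁ ∧ 0 ≤ X₁ ∧ 0 ≤ D₂ ∧ 0 ≤ X₂) ∧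
      (Divisor.degree D₁ = (g₁ : ℤ) - 1 + Fintype.card ι ∧ Divisor.degree X₁ = (g₁ : ℤ) ∧
        Divisor.degree D₂ = (g₂ : ℤ) ∧ Divisor.degree X₂ = (g₂ : ℤ) - 1 + Fintype.card ι) ∧
      ((∀ P ∈ T₁, D₁ P = 0) ∧ (∀ P ∈ T₁, X₁ P = 0) ∧ (∀ P ∈ T₂, D₂ P = 0) ∧
        (∀ P ∈ T₂, X₂ P = 0)) ∧
      ((∀ i, D₁ (ν₁ i) = 0) ∧ (∀ i, X₁ (ν₁ i) = 0) ∧ (∀ i, D₂ (ν₂ i) = 0) ∧
        (∀ i, X₂ (ν₂ i) = 0)) ∧
      ((∀ P, D₁ P ≤ 1) ∧ (∀ P, X₁ P ≤ 1) ∧ (∀ P, D₂ P ≤ 1) ∧ (∀ P, X₂ P ≤ 1)) ∧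
      (riemannRochSpace (D₁ - ttnkN ν₁) = ⊥ ∧ riemannRochSpace (X₁ - ttnkN ν₁) = ⊥ ∧
        riemannRochSpace (D₂ - ttnkN ν₂) = ⊥ ∧ riemannRochSpace (X₂ - ttnkN ν₂) = ⊥) ∧
      (finrank K (riemannRochSpace X₁) = 1 ∧ finrank K (riemannRochSpace D₂) = 1) ∧
      ttnkL ν₁ ν₂ D₁ D₂ = Submodule.span K {(1 : F₁ × F₂)} ∧
      ttnkL ν₁ ν₂ X₁ X₂ = Submodule.span K {(1 : F₁ × F₂)} := by
  classical
  have hne : Nonempty ι := Fintype.card_pos_iff.mp (by omega)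
  obtain ⟨D₁, hD₁0, hD₁deg, hD₁T, hD₁ν, hD₁r, hD₁sub⟩ :=
    ttnk_exists_general_sub ν₁ R₁ hdeg1₁ hs T₁
  obtain ⟨X₂, hX₂0, hX₂deg, hX₂T, hX₂ν, hX₂r, hX₂sub⟩ :=
    ttnk_exists_general_sub ν₂ R₂ hdeg1₂ hs T₂
  obtain ⟨X₁, hX₁0, hX₁deg, hX₁T, hX₁r, hX₁one⟩ :=
    ttnk_exists_general_one R₁ hdeg1₁ (T₁ ∪ Finset.univ.image ν₁)
  obtain ⟨D₂, hD₂0, hD₂deg, hD₂T, hD₂r, hD₂one⟩ :=
    ttnk_exists_general_one R₂ hdeg1₂ (T₂ ∪ Finset.univ.image ν₂)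
  have hX₁ν : ∀ i, X₁ (ν₁ i) = 0 := fun i =>
    hX₁T _ (Finset.mem_union_right _ (Finset.mem_image_of_mem ν₁ (Finset.mem_univ i)))
  have hD₂ν : ∀ i, D₂ (ν₂ i) = 0 := fun i =>
    hD₂T _ (Finset.mem_union_right _ (Finset.mem_image_of_mem ν₂ (Finset.mem_univ i)))
  refine ⟨D₁, X₁, D₂, X₂, ⟨hD₁0, hX₁0, hD₂0, hX₂0⟩, ⟨hD₁deg, hX₁deg, hD₂deg, hX₂deg⟩,
    ⟨hD₁T, fun P hP => hX₁T P (Finset.mem_union_left _ hP),
      fun P hP => hD₂T P (Finset.mem_union_left _ hP), hX₂T⟩,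
    ⟨hD₁ν, hX₁ν, hD₂ν, hX₂ν⟩, ⟨hD₁r, hX₁r, hD₂r, hX₂r⟩,
    ⟨hD₁sub, ttnk_sub_eq_bot_of_one R₁ ν₁ hν₁ hX₁0 hX₁ν hX₁one,
      ttnk_sub_eq_bot_of_one R₂ ν₂ hν₂ hD₂0 hD₂ν hD₂one, hX₂sub⟩,
    ⟨hX₁one, hD₂one⟩, ?_, ?_⟩
  · exact ttnk_L_eq_span_one ν₁ ν₂ R₂ hν₁ hD₁0 hD₂0 hD₁ν hD₁sub hD₂one
  · exact ttnk_L_eq_span_one' ν₁ ν₂ R₁ hν₂ hX₁0 hX₂0 hX₂ν hX₂sub hX₁one

end Two

end Fermat.Agent.TT
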