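import Mathlib
import Fermat.Agent.TT.Nodal.General
import Fermat.Agent.TT.Nodal.Coord
import Fermat.Agent.TT.Eng.Script

/-!
# Program TT (S33), nodal closed fibre, part 6: the nodal fibre and the script `0 + 0 = 0`

Owner: helper25.  Namespace `Fermat.Agent.TT`, prefix `ttnk`.

`TtnkFib ι K F₁ F₂ g₁ g₂ S c` : the closed fibre of the integral model of a curve with semistable
reduction `C̃ = C₁ ∪ C₂`: Riemann–Roch on both components, the nodes `ν₁ i ~ ν₂ i` (`i : S`), the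
level divisor `𝔡̃ = (dd₁, dd₂)` off the nodes, and bases of `L̃(i𝔡̃)` (`i = 1..5`) with
multiplication table `c` (`coord : TtnkCoord ι K (F₁ × F₂) c`).

* `ttnk_repL_mul`, `ttnk_repL_colon`, `ttnk_repL_mul_one` : the coordinate operations of
  `TT/Eng/Sub.lean` compute Mumford products and colons of the spaces `L̃(A₁, A₂)`;
* `ttnk_script` : the TEN DIMENSIONS and the identification `S10 = U_D` consumed by `tte_add` at the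
  closed point, for the computation `0 + 0 = 0`
  (`D = D' = D₀ = D̃₀`, `Ẽ = 2𝔡̃ - 2D̃₀ - X̃₀`, `L̃(D̃₀) = L̃(X̃₀) = K·1`).
-/

set_option autoImplicit false
set_option linter.unusedSectionVars false
set_option linter.unusedVariables false

noncomputable section

namespace Fermat.Agent.TT

open AlgebraicCurve Module Fermat.Agent.V.RR Fermat.Agent.G Fermat.Agent.FF Fermat.Agent.MW17

/-- the nodal closed fibre -/
structure TtnkFib (ι : ℕ → Type) [∀ i, Fintype (ι i)] (K F₁ F₂ : Type*) [Field K] [Field F₁]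
    [Field F₂] [Algebra K F₁] [Algebra K F₂] (g₁ g₂ : ℕ) (S : Type*) [Fintype S]
    (c : ∀ i j k : ℕ, ι i → ι j → ι k → K) where
  RR₁ : V27RR K F₁ g₁
  RR₂ : V27RR K F₂ g₂
  inf : Infinite K
  hdeg1₁ : ∀ v : Place K F₁, v.deg = 1
  hdeg1₂ : ∀ v : Place K F₂, v.deg = 1
  ν₁ : S → Place K F₁
  ν₂ : S → Place K F₂
  hν₁ : Function.Injective ν₁
  hν₂ : Function.Injective ν₂
  dd₁ : Divisor K F₁
  dd₂ : Divisor K F₂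
  hdd₁ : ∀ i, dd₁ (ν₁ i) = 0
  hdd₂ : ∀ i, dd₂ (ν₂ i) = 0
  coord : TtnkCoord ι K (F₁ × F₂) c
  hlvl : ∀ i, coord.lvl i = ttnkL ν₁ ν₂ (i • dd₁) (i • dd₂)

section Fib

variable {ι : ℕ → Type} [∀ i, Fintype (ι i)] {K F₁ F₂ : Type*} [Field K] [Field F₁] [Field F₂]
  [Algebra K F₁] [Algebra K F₂] {g₁ g₂ : ℕ} {S : Type*} [Fintype S]
  {c : ∀ i j k : ℕ, ι i → ι j → ι k → K} (fib : TtnkFib ι K F₁ F₂ g₁ g₂ S c)

/-- the coordinate subspace `U` of level `i` is `L̃(A₁, A₂)` -/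
def TtnkRepL (i : ℕ) (U : Submodule K (ι i → K)) (A₁ : Divisor K F₁) (A₂ : Divisor K F₂) : Prop :=
  TtnkRep fib.coord i U (ttnkL fib.ν₁ fib.ν₂ A₁ A₂)

theorem ttnk_repL_congr {i : ℕ} {U : Submodule K (ι i → K)} {A₁ A₁' : Divisor K F₁}
    {A₂ A₂' : Divisor K F₂} (h : TtnkRepL fib i U A₁ A₂) (e₁ : A₁ = A₁') (e₂ : A₂ = A₂') :
    TtnkRepL fib i U A₁' A₂' := by
  subst e₁ e₂
  exact h

theorem ttnk_repL_top {i : ℕ} (h1 : 1 ≤ i) (h5 : i ≤ 5) :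
    TtnkRepL fib i ⊤ (i • fib.dd₁) (i • fib.dd₂) := by
  rw [TtnkRepL, ← fib.hlvl i]
  exact ttnk_rep_top fib.coord h1 h5

theorem ttnk_repL_finrank {i : ℕ} (h1 : 1 ≤ i) (h5 : i ≤ 5) {U : Submodule K (ι i → K)}
    {A₁ : Divisor K F₁} {A₂ : Divisor K F₂} (h : TtnkRepL fib i U A₁ A₂) :
    finrank K U = finrank K (ttnkL fib.ν₁ fib.ν₂ A₁ A₂) :=
  ttnk_rep_finrank fib.coord h1 h5 h

theorem ttnk_repL_eq {i : ℕ} (h1 : 1 ≤ i) (h5 : i ≤ 5) {U U' : Submodule K (ι i → K)}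
    {A₁ : Divisor K F₁} {A₂ : Divisor K F₂} (h : TtnkRepL fib i U A₁ A₂)
    (h' : TtnkRepL fib i U' A₁ A₂) : U = U' :=
  ttnk_rep_eq fib.coord h1 h5 h h'

/-- **product step**: `L̃(A)·L̃(B) = L̃(A + B)` -/
theorem ttnk_repL_mul {i j k : ℕ} (hk : k = i + j) (hi : 1 ≤ i) (hj : 1 ≤ j) (h5 : k ≤ 5)
    {U : Submodule K (ι i → K)} {U' : Submodule K (ι j → K)}
    {A₁ B₁ : Divisor K F₁} {A₂ B₂ : Divisor K F₂}
    (hU : TtnkRepL fib i U A₁ A₂) (hU' : TtnkRepL fib j U' B₁ B₂)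
    (hA₁ : ∀ s, A₁ (fib.ν₁ s) = 0) (hA₂ : ∀ s, A₂ (fib.ν₂ s) = 0)
    (hB₁ : ∀ s, B₁ (fib.ν₁ s) = 0) (hB₂ : ∀ s, B₂ (fib.ν₂ s) = 0)
    (hdA₁ : 4 * (g₁ : ℤ) + Fintype.card S ≤ Divisor.degree A₁)
    (hdA₂ : 4 * (g₂ : ℤ) + Fintype.card S ≤ Divisor.degree A₂)
    (hdB₁ : 2 * (g₁ : ℤ) - 1 + Fintype.card S ≤ Divisor.degree B₁)
    (hdB₂ : 2 * (g₂ : ℤ) - 1 + Fintype.card S ≤ Divisor.degree B₂)
    (hdB₁' : 2 * (g₁ : ℤ) ≤ Divisor.degree B₁) (hdB₂' : 2 * (g₂ : ℤ) ≤ Divisor.degree B₂) :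
    TtnkRepL fib k (tteMul (c i j k) U U') (A₁ + B₁) (A₂ + B₂) := by
  have := fib.inf
  rw [TtnkRepL, ← ttnk_mul_eq fib.ν₁ fib.ν₂ fib.RR₁ fib.RR₂ fib.hdeg1₁ fib.hdeg1₂ fib.hν₁ fib.hν₂
    hA₁ hA₂ hB₁ hB₂ hdA₁ hdA₂ hdB₁ hdB₂ hdB₁' hdB₂']
  exact ttnk_rep_mul fib.coord hk hi hj h5 hU hU'

/-- **principal product step** with the section `1`: `K·1·V = V` -/
theorem ttnk_rep_mul_one {i j k : ℕ} (hk : k = i + j) (hi : 1 ≤ i) (hj : 1 ≤ j) (h5 : k ≤ 5)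
    {U : Submodule K (ι i → K)} {U' : Submodule K (ι j → K)} {V : Submodule K (F₁ × F₂)}
    (hU : TtnkRep fib.coord i U (Submodule.span K {(1 : F₁ × F₂)}))
    (hU' : TtnkRep fib.coord j U' V) :
    TtnkRep fib.coord k (tteMul (c i j k) U U') V := by
  have := ttnk_rep_mul fib.coord hk hi hj h5 hU hU'
  rwa [← Submodule.one_eq_span, one_mul] at this

/-- **colon step**: `(L̃(C) : L̃(B)) ∩ L̃(i𝔡̃) = L̃(i𝔡̃ ⊓ (C - B))` -/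
theorem ttnk_repL_colon {i j k : ℕ} (hk : k = i + j) (hi : 1 ≤ i) (hj : 1 ≤ j) (h5 : k ≤ 5)
    {Cs : Submodule K (ι k → K)} {C₁ : Divisor K F₁} {C₂ : Divisor K F₂}
    (hC : TtnkRepL fib k Cs C₁ C₂)
    {Bs : Submodule K (ι j → K)} {B₁ : Divisor K F₁} {B₂ : Divisor K F₂}
    (hB : TtnkRepL fib j Bs B₁ B₂)
    (hB₁ : ∀ s, B₁ (fib.ν₁ s) = 0) (hB₂ : ∀ s, B₂ (fib.ν₂ s) = 0)
    (hC₁ : ∀ s, C₁ (fib.ν₁ s) = 0) (hC₂ : ∀ s, C₂ (fib.ν₂ s) = 0)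
    (hdB₁ : 2 * (g₁ : ℤ) + Fintype.card S ≤ Divisor.degree B₁)
    (hdB₂ : 2 * (g₂ : ℤ) + Fintype.card S ≤ Divisor.degree B₂) :
    TtnkRepL fib i (tteColon (c i j k) Cs Bs) ((i • fib.dd₁) ⊓ (C₁ - B₁))
      ((i • fib.dd₂) ⊓ (C₂ - B₂)) := by
  have := fib.inf
  refine ttnk_rep_colon fib.coord hk hi hj h5 hC hB fun f => ?_
  rw [← ttnk_inf, Submodule.mem_inf, fib.hlvl i,
    ttnk_colon fib.ν₁ fib.ν₂ fib.RR₁ fib.RR₂ fib.hdeg1₁ fib.hdeg1₂ fib.hν₁ fib.hν₂ hB₁ hB₂ hC₁ hC₂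
      hdB₁ hdB₂ f]

/-- a divisor between `0` and a divisor with `L̃ = K·1` has `L̃ = K·1` -/
theorem ttnk_L_sandwich {Z₁ X₁ : Divisor K F₁} {Z₂ X₂ : Divisor K F₂}
    (h0₁ : 0 ≤ Z₁) (h0₂ : 0 ≤ Z₂) (hle₁ : Z₁ ≤ X₁) (hle₂ : Z₂ ≤ X₂)
    (hX : ttnkL fib.ν₁ fib.ν₂ X₁ X₂ = Submodule.span K {(1 : F₁ × F₂)}) :
    ttnkL fib.ν₁ fib.ν₂ Z₁ Z₂ = Submodule.span K {(1 : F₁ × F₂)} := by
  apply le_antisymm
  · rw [← hX]
    exact ttnk_L_mono _ _ hle₁ hle₂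
  · rw [Submodule.span_le, Set.singleton_subset_iff]
    exact ttnk_one_mem _ _ h0₁ h0₂

/-- the dimension of a represented space in the non-special range -/
theorem ttnk_repL_finrank_deg {i : ℕ} (h1 : 1 ≤ i) (h5 : i ≤ 5) {U : Submodule K (ι i → K)}
    {A₁ : Divisor K F₁} {A₂ : Divisor K F₂} (h : TtnkRepL fib i U A₁ A₂)
    (hA₁ : ∀ s, A₁ (fib.ν₁ s) = 0) (hA₂ : ∀ s, A₂ (fib.ν₂ s) = 0)
    (hd₁ : 2 * (g₁ : ℤ) - 1 + Fintype.card S ≤ Divisor.degree A₁)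
    (hd₂ : 2 * (g₂ : ℤ) - 1 ≤ Divisor.degree A₂) :
    (finrank K U : ℤ) =
      Divisor.degree A₁ + Divisor.degree A₂ + 1 - ((g₁ : ℤ) + g₂ + Fintype.card S - 1) := by
  rw [ttnk_repL_finrank fib h1 h5 h]
  exact ttnk_finrank_deg fib.ν₁ fib.ν₂ fib.hdeg1₁ fib.hdeg1₂ A₁ A₂ hA₁ hA₂ fib.RR₁ fib.RR₂ fib.hν₁
    hd₁ hd₂

theorem ttnk_finrank_span_one :
    finrank K (Submodule.span K {(1 : F₁ × F₂)}) = 1 :=
  finrank_span_singleton one_ne_zero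

end Fib

end Fermat.Agent.TT
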