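import Mathlib
import Fermat.Agent.TT.Nodal.Fib

/-!
# Program TT (S33), nodal closed fibre, part 7: the closed-fibre script `0 + 0 = 0`

Owner: helper25.  Namespace `Fermat.Agent.TT`, prefix `ttnk`.

`ttnk_script` : on the nodal fibre `fib : TtnkFib …`, with `D̃₀ = (D₁, D₂)`, `X̃₀ = (X₁, X₂)` as
produced by `ttnk_exists_origin` and inputs `U_D = U_D' ↔ L̃(𝔡̃ - D̃₀)`, `U_E ↔ L̃(2D̃₀ + X̃₀)`
(`= L̃(2𝔡̃ - Ẽ)`, `Ẽ = 2𝔡̃ - 2D̃₀ - X̃₀`), `U_ED ↔ L̃(D̃₀ + X̃₀)`, `U_ED3 ↔ L̃(𝔡̃ + D̃₀ + X̃₀)`,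
the ten subspaces of the script of `TT/Eng/Script.lean` have the generic dimensions
(`δ = deg 𝔡̃`, `g = g₁ + g₂ + s - 1`) and `S10 = U_D`.
-/

set_option autoImplicit false
set_option linter.unusedSectionVars false
set_option linter.unusedVariables false

noncomputable section

namespace Fermat.Agent.TT

open AlgebraicCurve Module Fermat.Agent.V.RR Fermat.Agent.G Fermat.Agent.FF Fermat.Agent.MW17

variable {ι : ℕ → Type} [∀ i, Fintype (ι i)] {K F₁ F₂ : Type*} [Field K] [Field F₁] [Field F₂]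
  [Algebra K F₁] [Algebra K F₂] {g₁ g₂ : ℕ} {S : Type*} [Fintype S]
  {c : ∀ i j k : ℕ, ι i → ι j → ι k → K} (fib : TtnkFib ι K F₁ F₂ g₁ g₂ S c)

/-- **the closed-fibre script** -/
theorem ttnk_script (I : TteIn ι K) (D₁ X₁ : Divisor K F₁) (D₂ X₂ : Divisor K F₂)
    (hs : 1 ≤ Fintype.card S) (hdd₁0 : 0 ≤ fib.dd₁) (hdd₂0 : 0 ≤ fib.dd₂)
    (hD₁0 : 0 ≤ D₁) (hX₁0 : 0 ≤ X₁) (hD₂0 : 0 ≤ D₂) (hX₂0 : 0 ≤ X₂)
    (hD₁deg : Divisor.degree D₁ = (g₁ : ℤ) - 1 + Fintype.card S)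
    (hX₁deg : Divisor.degree X₁ = (g₁ : ℤ))
    (hD₂deg : Divisor.degree D₂ = (g₂ : ℤ))
    (hX₂deg : Divisor.degree X₂ = (g₂ : ℤ) - 1 + Fintype.card S)
    (hD₁ν : ∀ s, D₁ (fib.ν₁ s) = 0) (hX₁ν : ∀ s, X₁ (fib.ν₁ s) = 0)
    (hD₂ν : ∀ s, D₂ (fib.ν₂ s) = 0) (hX₂ν : ∀ s, X₂ (fib.ν₂ s) = 0)
    (hD : ttnkL fib.ν₁ fib.ν₂ D₁ D₂ = Submodule.span K {(1 : F₁ × F₂)})
    (hX : ttnkL fib.ν₁ fib.ν₂ X₁ X₂ = Submodule.span K {(1 : F₁ × F₂)})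
    (hδ₁ : 5 * (g₁ : ℤ) + 2 * Fintype.card S - 1 ≤ Divisor.degree fib.dd₁)
    (hδ₂ : 5 * (g₂ : ℤ) + 2 * Fintype.card S - 1 ≤ Divisor.degree fib.dd₂)
    (hUD : TtnkRepL fib 1 I.UD (fib.dd₁ - D₁) (fib.dd₂ - D₂))
    (hUD' : TtnkRepL fib 1 I.UD' (fib.dd₁ - D₁) (fib.dd₂ - D₂))
    (hUE : TtnkRepL fib 2 I.UE ((2 : ℕ) • D₁ + X₁) ((2 : ℕ) • D₂ + X₂))
    (hUED : TtnkRepL fib 2 I.UED (D₁ + X₁) (D₂ + X₂))
    (hUED3 : TtnkRepL fib 3 I.UED3 (fib.dd₁ + D₁ + X₁) (fib.dd₂ + D₂ + X₂))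
    (δ g : ℤ) (hδ : Divisor.degree fib.dd₁ + Divisor.degree fib.dd₂ = δ)
    (hg : g = (g₁ : ℤ) + g₂ + Fintype.card S - 1) :
    (finrank K (tteS1 c I) : ℤ) = 2 * δ - 3 * g + 1 ∧
    (finrank K (tteS2 c I) : ℤ) = 2 * δ + 1 ∧
    finrank K (tteS3 c I) = 1 ∧
    (finrank K (tteS4 c I) : ℤ) = 3 * δ + 1 - g ∧
    (finrank K (tteS5 c I) : ℤ) = δ - 2 * g + 1 ∧
    (finrank K (tteS6 c I) : ℤ) = δ + 1 ∧
    finrank K (tteS7 c I) = 1 ∧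
    (finrank K (tteS8 c I) : ℤ) = 2 * δ + 1 ∧
    (finrank K (tteS9 c I) : ℤ) = 3 * δ + 1 - g ∧
    (finrank K (tteS10 c I) : ℤ) = δ - 2 * g + 1 ∧
    tteS10 c I = I.UD := by
  have hs' : (1 : ℤ) ≤ Fintype.card S := by exact_mod_cast hs
  have hg₁ : (0 : ℤ) ≤ g₁ := Int.natCast_nonneg _
  have hg₂ : (0 : ℤ) ≤ g₂ := Int.natCast_nonneg _
  have hddν₁ := fib.hdd₁
  have hddν₂ := fib.hdd₂
  -- Step 1: S1 = L̃(2𝔡 - 2D₀)
  have hR1 : TtnkRepL fib 2 (tteS1 c I) (fib.dd₁ - D₁ + (fib.dd₁ - D₁))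
      (fib.dd₂ - D₂ + (fib.dd₂ - D₂)) :=
    ttnk_repL_mul fib (i := 1) (j := 1) (k := 2) rfl le_rfl le_rfl (by norm_num) hUD hUD'
      (fun s => by rw [Finsupp.sub_apply, hddν₁ s, hD₁ν s, sub_zero])
      (fun s => by rw [Finsupp.sub_apply, hddν₂ s, hD₂ν s, sub_zero])
      (fun s => by rw [Finsupp.sub_apply, hddν₁ s, hD₁ν s, sub_zero])
      (fun s => by rw [Finsupp.sub_apply, hddν₂ s, hD₂ν s, sub_zero])
      (by rw [map_sub, hD₁deg]; linarith) (by rw [map_sub, hD₂deg]; linarith)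
      (by rw [map_sub, hD₁deg]; linarith) (by rw [map_sub, hD₂deg]; linarith)
      (by rw [map_sub, hD₁deg]; linarith) (by rw [map_sub, hD₂deg]; linarith)
  have hS1ν₁ : ∀ s, (fib.dd₁ - D₁ + (fib.dd₁ - D₁)) (fib.ν₁ s) = 0 := fun s => by
    rw [Finsupp.add_apply, Finsupp.sub_apply, hddν₁ s, hD₁ν s, sub_zero, add_zero]
  have hS1ν₂ : ∀ s, (fib.dd₂ - D₂ + (fib.dd₂ - D₂)) (fib.ν₂ s) = 0 := fun s => by
    rw [Finsupp.add_apply, Finsupp.sub_apply, hddν₂ s, hD₂ν s, sub_zero, add_zero]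
  have hf1 := ttnk_repL_finrank_deg fib (by norm_num) (by norm_num) hR1 hS1ν₁ hS1ν₂
    (by rw [map_add, map_sub, hD₁deg]; linarith) (by rw [map_add, map_sub, hD₂deg]; linarith)
  -- Step 2: S2 = L̃(2𝔡 + X₀)
  have hUEν₁ : ∀ s, ((2 : ℕ) • D₁ + X₁) (fib.ν₁ s) = 0 := fun s => by
    rw [Finsupp.add_apply, Finsupp.smul_apply, hD₁ν s, hX₁ν s, smul_zero, add_zero]
  have hUEν₂ : ∀ s, ((2 : ℕ) • D₂ + X₂) (fib.ν₂ s) = 0 := fun s => by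
    rw [Finsupp.add_apply, Finsupp.smul_apply, hD₂ν s, hX₂ν s, smul_zero, add_zero]
  have hR2' : TtnkRepL fib 4 (tteS2 c I)
      (fib.dd₁ - D₁ + (fib.dd₁ - D₁) + ((2 : ℕ) • D₁ + X₁))
      (fib.dd₂ - D₂ + (fib.dd₂ - D₂) + ((2 : ℕ) • D₂ + X₂)) :=
    ttnk_repL_mul fib (i := 2) (j := 2) (k := 4) rfl (by norm_num) (by norm_num) (by norm_num)
      hR1 hUE hS1ν₁ hS1ν₂ hUEν₁ hUEν₂
      (by rw [map_add, map_sub, hD₁deg]; linarith) (by rw [map_add, map_sub, hD₂deg]; linarith)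
      (by rw [map_add, map_nsmul, hD₁deg, hX₁deg, nsmul_eq_mul]; push_cast; linarith)
      (by rw [map_add, map_nsmul, hD₂deg, hX₂deg, nsmul_eq_mul]; push_cast; linarith)
      (by rw [map_add, map_nsmul, hD₁deg, hX₁deg, nsmul_eq_mul]; push_cast; linarith)
      (by rw [map_add, map_nsmul, hD₂deg, hX₂deg, nsmul_eq_mul]; push_cast; linarith)
  have hR2 : TtnkRepL fib 4 (tteS2 c I) ((2 : ℕ) • fib.dd₁ + X₁) ((2 : ℕ) • fib.dd₂ + X₂) :=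
    ttnk_repL_congr fib hR2' (by rw [two_nsmul, two_nsmul]; abel) (by rw [two_nsmul, two_nsmul]; abel)
  have hS2ν₁ : ∀ s, ((2 : ℕ) • fib.dd₁ + X₁) (fib.ν₁ s) = 0 := fun s => by
    rw [Finsupp.add_apply, Finsupp.smul_apply, hddν₁ s, hX₁ν s, smul_zero, add_zero]
  have hS2ν₂ : ∀ s, ((2 : ℕ) • fib.dd₂ + X₂) (fib.ν₂ s) = 0 := fun s => by
    rw [Finsupp.add_apply, Finsupp.smul_apply, hddν₂ s, hX₂ν s, smul_zero, add_zero]
  have hS2d₁ : Divisor.degree ((2 : ℕ) • fib.dd₁ + X₁) = 2 * Divisor.degree fib.dd₁ + g₁ := by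
    rw [map_add, map_nsmul, hX₁deg, nsmul_eq_mul]; push_cast; ring
  have hS2d₂ : Divisor.degree ((2 : ℕ) • fib.dd₂ + X₂) =
      2 * Divisor.degree fib.dd₂ + ((g₂ : ℤ) - 1 + Fintype.card S) := by
    rw [map_add, map_nsmul, hX₂deg, nsmul_eq_mul]; push_cast; ring
  have hf2 := ttnk_repL_finrank_deg fib (by norm_num) (by norm_num) hR2 hS2ν₁ hS2ν₂
    (by rw [hS2d₁]; linarith) (by rw [hS2d₂]; linarith)
  -- the level spaces
  have hlvlν₁ : ∀ (n : ℕ) s, (n • fib.dd₁) (fib.ν₁ s) = 0 := fun n s => by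
    rw [Finsupp.smul_apply, hddν₁ s, smul_zero]
  have hlvlν₂ : ∀ (n : ℕ) s, (n • fib.dd₂) (fib.ν₂ s) = 0 := fun n s => by
    rw [Finsupp.smul_apply, hddν₂ s, smul_zero]
  have hlvld₁ : ∀ n : ℕ, Divisor.degree (n • fib.dd₁) = n * Divisor.degree fib.dd₁ := fun n => by
    rw [map_nsmul, nsmul_eq_mul]
  have hlvld₂ : ∀ n : ℕ, Divisor.degree (n • fib.dd₂) = n * Divisor.degree fib.dd₂ := fun n => by
    rw [map_nsmul, nsmul_eq_mul]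
  have hlvl0₁ : ∀ n : ℕ, 0 ≤ n • fib.dd₁ := fun n => nsmul_nonneg hdd₁0 n
  have hlvl0₂ : ∀ n : ℕ, 0 ≤ n • fib.dd₂ := fun n => nsmul_nonneg hdd₂0 n
  -- Step 3: S3 = K·1
  have hR3' := ttnk_repL_colon fib (i := 2) (j := 2) (k := 4) rfl (by norm_num) (by norm_num)
    (by norm_num) hR2 (ttnk_repL_top fib (i := 2) (by norm_num) (by norm_num))
    (hlvlν₁ 2) (hlvlν₂ 2) hS2ν₁ hS2ν₂
    (by rw [hlvld₁]; push_cast; linarith) (by rw [hlvld₂]; push_cast; linarith)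
  have hR3 : TtnkRep fib.coord 2 (tteS3 c I) (Submodule.span K {(1 : F₁ × F₂)}) := by
    refine ttnk_rep_congr fib.coord hR3' (ttnk_L_sandwich fib ?_ ?_ ?_ ?_ hX)
    · exact le_inf (hlvl0₁ 2) (by rw [add_sub_cancel_left]; exact hX₁0)
    · exact le_inf (hlvl0₂ 2) (by rw [add_sub_cancel_left]; exact hX₂0)
    · exact inf_le_right.trans (by rw [add_sub_cancel_left])
    · exact inf_le_right.trans (by rw [add_sub_cancel_left])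
  have hf3 : finrank K (tteS3 c I) = 1 := by
    rw [ttnk_rep_finrank fib.coord (by norm_num) (by norm_num) hR3]
    exact ttnk_finrank_span_one
  -- Step 4: S4 = L̃(3𝔡)
  have hR4 : TtnkRepL fib 5 (tteS4 c I) ((3 : ℕ) • fib.dd₁) ((3 : ℕ) • fib.dd₂) :=
    ttnk_rep_mul_one fib (i := 2) (j := 3) (k := 5) rfl (by norm_num) (by norm_num) (by norm_num)
      hR3 (ttnk_repL_top fib (i := 3) (by norm_num) (by norm_num))
  have hf4 := ttnk_repL_finrank_deg fib (by norm_num) (by norm_num) hR4 (hlvlν₁ 3) (hlvlν₂ 3)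
    (by rw [hlvld₁]; push_cast; linarith) (by rw [hlvld₂]; push_cast; linarith)
  -- Step 5: S5 = L̃(𝔡 - X₀)
  have hR5' := ttnk_repL_colon fib (i := 1) (j := 4) (k := 5) rfl (by norm_num) (by norm_num)
    (by norm_num) hR4 hR2 hS2ν₁ hS2ν₂ (hlvlν₁ 3) (hlvlν₂ 3)
    (by rw [hS2d₁]; linarith) (by rw [hS2d₂]; linarith)
  have hR5 : TtnkRepL fib 1 (tteS5 c I) (fib.dd₁ - X₁) (fib.dd₂ - X₂) := by
    refine ttnk_repL_congr fib hR5' ?_ ?_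
    · have e : (3 : ℕ) • fib.dd₁ - ((2 : ℕ) • fib.dd₁ + X₁) = fib.dd₁ - X₁ := by
        rw [show (3 : ℕ) = 2 + 1 from rfl, add_nsmul, one_nsmul]; abel
      rw [e, one_nsmul]
      exact inf_eq_right.mpr (sub_le_self _ hX₁0)
    · have e : (3 : ℕ) • fib.dd₂ - ((2 : ℕ) • fib.dd₂ + X₂) = fib.dd₂ - X₂ := by
        rw [show (3 : ℕ) = 2 + 1 from rfl, add_nsmul, one_nsmul]; abel
      rw [e, one_nsmul]
      exact inf_eq_right.mpr (sub_le_self _ hX₂0)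
  have hS5ν₁ : ∀ s, (fib.dd₁ - X₁) (fib.ν₁ s) = 0 := fun s => by
    rw [Finsupp.sub_apply, hddν₁ s, hX₁ν s, sub_zero]
  have hS5ν₂ : ∀ s, (fib.dd₂ - X₂) (fib.ν₂ s) = 0 := fun s => by
    rw [Finsupp.sub_apply, hddν₂ s, hX₂ν s, sub_zero]
  have hf5 := ttnk_repL_finrank_deg fib (by norm_num) (by norm_num) hR5 hS5ν₁ hS5ν₂
    (by rw [map_sub, hX₁deg]; linarith) (by rw [map_sub, hX₂deg]; linarith)
  -- Step 6: S6 = L̃(𝔡 + D₀), the tight Mumford product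
  have hUEDν₁ : ∀ s, (D₁ + X₁) (fib.ν₁ s) = 0 := fun s => by
    rw [Finsupp.add_apply, hD₁ν s, hX₁ν s, add_zero]
  have hUEDν₂ : ∀ s, (D₂ + X₂) (fib.ν₂ s) = 0 := fun s => by
    rw [Finsupp.add_apply, hD₂ν s, hX₂ν s, add_zero]
  have hR6' : TtnkRepL fib 3 (tteS6 c I) (fib.dd₁ - X₁ + (D₁ + X₁)) (fib.dd₂ - X₂ + (D₂ + X₂)) :=
    ttnk_repL_mul fib (i := 1) (j := 2) (k := 3) rfl (by norm_num) (by norm_num) (by norm_num)
      hR5 hUED hS5ν₁ hS5ν₂ hUEDν₁ hUEDν₂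
      (by rw [map_sub, hX₁deg]; linarith) (by rw [map_sub, hX₂deg]; linarith)
      (by rw [map_add, hD₁deg, hX₁deg]; linarith) (by rw [map_add, hD₂deg, hX₂deg]; linarith)
      (by rw [map_add, hD₁deg, hX₁deg]; linarith) (by rw [map_add, hD₂deg, hX₂deg]; linarith)
  have hR6 : TtnkRepL fib 3 (tteS6 c I) (fib.dd₁ + D₁) (fib.dd₂ + D₂) :=
    ttnk_repL_congr fib hR6' (by abel) (by abel)
  have hS6ν₁ : ∀ s, (fib.dd₁ + D₁) (fib.ν₁ s) = 0 := fun s => by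
    rw [Finsupp.add_apply, hddν₁ s, hD₁ν s, add_zero]
  have hS6ν₂ : ∀ s, (fib.dd₂ + D₂) (fib.ν₂ s) = 0 := fun s => by
    rw [Finsupp.add_apply, hddν₂ s, hD₂ν s, add_zero]
  have hf6 := ttnk_repL_finrank_deg fib (by norm_num) (by norm_num) hR6 hS6ν₁ hS6ν₂
    (by rw [map_add, hD₁deg]; linarith) (by rw [map_add, hD₂deg]; linarith)
  -- Step 7: S7 = K·1
  have hR7' := ttnk_repL_colon fib (i := 2) (j := 1) (k := 3) rfl (by norm_num) (by norm_num)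
    (by norm_num) hR6 (ttnk_repL_top fib (i := 1) (by norm_num) (by norm_num))
    (hlvlν₁ 1) (hlvlν₂ 1) hS6ν₁ hS6ν₂
    (by rw [hlvld₁]; push_cast; linarith) (by rw [hlvld₂]; push_cast; linarith)
  have hR7 : TtnkRep fib.coord 2 (tteS7 c I) (Submodule.span K {(1 : F₁ × F₂)}) := by
    refine ttnk_rep_congr fib.coord hR7' (ttnk_L_sandwich fib ?_ ?_ ?_ ?_ hD)
    · exact le_inf (hlvl0₁ 2) (by rw [one_nsmul, add_sub_cancel_left]; exact hD₁0)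
    · exact le_inf (hlvl0₂ 2) (by rw [one_nsmul, add_sub_cancel_left]; exact hD₂0)
    · exact inf_le_right.trans (by rw [one_nsmul, add_sub_cancel_left])
    · exact inf_le_right.trans (by rw [one_nsmul, add_sub_cancel_left])
  have hf7 : finrank K (tteS7 c I) = 1 := by
    rw [ttnk_rep_finrank fib.coord (by norm_num) (by norm_num) hR7]
    exact ttnk_finrank_span_one
  -- Step 8: S8 = L̃(2𝔡 + D₀)
  have hUED3ν₁ : ∀ s, (fib.dd₁ + D₁ + X₁) (fib.ν₁ s) = 0 := fun s => by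
    rw [Finsupp.add_apply, Finsupp.add_apply, hddν₁ s, hD₁ν s, hX₁ν s, add_zero, add_zero]
  have hUED3ν₂ : ∀ s, (fib.dd₂ + D₂ + X₂) (fib.ν₂ s) = 0 := fun s => by
    rw [Finsupp.add_apply, Finsupp.add_apply, hddν₂ s, hD₂ν s, hX₂ν s, add_zero, add_zero]
  have hR8' : TtnkRepL fib 4 (tteS8 c I) (fib.dd₁ - X₁ + (fib.dd₁ + D₁ + X₁))
      (fib.dd₂ - X₂ + (fib.dd₂ + D₂ + X₂)) :=
    ttnk_repL_mul fib (i := 1) (j := 3) (k := 4) rfl (by norm_num) (by norm_num) (by norm_num)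
      hR5 hUED3 hS5ν₁ hS5ν₂ hUED3ν₁ hUED3ν₂
      (by rw [map_sub, hX₁deg]; linarith) (by rw [map_sub, hX₂deg]; linarith)
      (by rw [map_add, map_add, hD₁deg, hX₁deg]; linarith)
      (by rw [map_add, map_add, hD₂deg, hX₂deg]; linarith)
      (by rw [map_add, map_add, hD₁deg, hX₁deg]; linarith)
      (by rw [map_add, map_add, hD₂deg, hX₂deg]; linarith)
  have hR8 : TtnkRepL fib 4 (tteS8 c I) ((2 : ℕ) • fib.dd₁ + D₁) ((2 : ℕ) • fib.dd₂ + D₂) :=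
    ttnk_repL_congr fib hR8' (by rw [two_nsmul]; abel) (by rw [two_nsmul]; abel)
  have hS8ν₁ : ∀ s, ((2 : ℕ) • fib.dd₁ + D₁) (fib.ν₁ s) = 0 := fun s => by
    rw [Finsupp.add_apply, Finsupp.smul_apply, hddν₁ s, hD₁ν s, smul_zero, add_zero]
  have hS8ν₂ : ∀ s, ((2 : ℕ) • fib.dd₂ + D₂) (fib.ν₂ s) = 0 := fun s => by
    rw [Finsupp.add_apply, Finsupp.smul_apply, hddν₂ s, hD₂ν s, smul_zero, add_zero]
  have hS8d₁ : Divisor.degree ((2 : ℕ) • fib.dd₁ + D₁) =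
      2 * Divisor.degree fib.dd₁ + ((g₁ : ℤ) - 1 + Fintype.card S) := by
    rw [map_add, map_nsmul, hD₁deg, nsmul_eq_mul]; push_cast; ring
  have hS8d₂ : Divisor.degree ((2 : ℕ) • fib.dd₂ + D₂) = 2 * Divisor.degree fib.dd₂ + g₂ := by
    rw [map_add, map_nsmul, hD₂deg, nsmul_eq_mul]; push_cast; ring
  have hf8 := ttnk_repL_finrank_deg fib (by norm_num) (by norm_num) hR8 hS8ν₁ hS8ν₂
    (by rw [hS8d₁]; linarith) (by rw [hS8d₂]; linarith)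
  -- Step 9: S9 = L̃(3𝔡)
  have hR9 : TtnkRepL fib 5 (tteS9 c I) ((3 : ℕ) • fib.dd₁) ((3 : ℕ) • fib.dd₂) :=
    ttnk_rep_mul_one fib (i := 2) (j := 3) (k := 5) rfl (by norm_num) (by norm_num) (by norm_num)
      hR7 (ttnk_repL_top fib (i := 3) (by norm_num) (by norm_num))
  have hf9 := ttnk_repL_finrank_deg fib (by norm_num) (by norm_num) hR9 (hlvlν₁ 3) (hlvlν₂ 3)
    (by rw [hlvld₁]; push_cast; linarith) (by rw [hlvld₂]; push_cast; linarith)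
  -- Step 10: S10 = L̃(𝔡 - D₀)
  have hR10' := ttnk_repL_colon fib (i := 1) (j := 4) (k := 5) rfl (by norm_num) (by norm_num)
    (by norm_num) hR9 hR8 hS8ν₁ hS8ν₂ (hlvlν₁ 3) (hlvlν₂ 3)
    (by rw [hS8d₁]; linarith) (by rw [hS8d₂]; linarith)
  have hR10 : TtnkRepL fib 1 (tteS10 c I) (fib.dd₁ - D₁) (fib.dd₂ - D₂) := by
    refine ttnk_repL_congr fib hR10' ?_ ?_
    · have e : (3 : ℕ) • fib.dd₁ - ((2 : ℕ) • fib.dd₁ + D₁) = fib.dd₁ - D₁ := by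
        rw [show (3 : ℕ) = 2 + 1 from rfl, add_nsmul, one_nsmul]; abel
      rw [e, one_nsmul]
      exact inf_eq_right.mpr (sub_le_self _ hD₁0)
    · have e : (3 : ℕ) • fib.dd₂ - ((2 : ℕ) • fib.dd₂ + D₂) = fib.dd₂ - D₂ := by
        rw [show (3 : ℕ) = 2 + 1 from rfl, add_nsmul, one_nsmul]; abel
      rw [e, one_nsmul]
      exact inf_eq_right.mpr (sub_le_self _ hD₂0)
  have hS10ν₁ : ∀ s, (fib.dd₁ - D₁) (fib.ν₁ s) = 0 := fun s => by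
    rw [Finsupp.sub_apply, hddν₁ s, hD₁ν s, sub_zero]
  have hS10ν₂ : ∀ s, (fib.dd₂ - D₂) (fib.ν₂ s) = 0 := fun s => by
    rw [Finsupp.sub_apply, hddν₂ s, hD₂ν s, sub_zero]
  have hf10 := ttnk_repL_finrank_deg fib (by norm_num) (by norm_num) hR10 hS10ν₁ hS10ν₂
    (by rw [map_sub, hD₁deg]; linarith) (by rw [map_sub, hD₂deg]; linarith)
  have h10eq : tteS10 c I = I.UD := ttnk_repL_eq fib (by norm_num) (by norm_num) hR10 hUD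
  refine ⟨?_, ?_, hf3, ?_, ?_, ?_, hf7, ?_, ?_, ?_, h10eq⟩
  · rw [hf1, map_add, map_sub, map_add, map_sub, hD₁deg, hD₂deg, hg, ← hδ]; ring
  · rw [hf2, hS2d₁, hS2d₂, ← hδ]; ring
  · rw [hf4, hlvld₁, hlvld₂, hg, ← hδ]; push_cast; ring
  · rw [hf5, map_sub, map_sub, hX₁deg, hX₂deg, hg, ← hδ]; ring
  · rw [hf6, map_add, map_add, hD₁deg, hD₂deg, ← hδ]; ring
  · rw [hf8, hS8d₁, hS8d₂, ← hδ]; ring
  · rw [hf9, hlvld₁, hlvld₂, hg, ← hδ]; push_cast; ring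
  · rw [hf10, map_sub, map_sub, hD₁deg, hD₂deg, hg, ← hδ]; ring

end Fermat.Agent.TT
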