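import Mathlib
import Fermat.Agent.TT.Nodal.Script
import Fermat.Agent.TT.Eng.Two

/-!
# Program TT (S33), nodal closed fibre, part 8: `TteClosed` on the nodal fibre

Owner: helper25.  Namespace `Fermat.Agent.TT`, prefix `ttnk`.

`ttnk_closed` : the closed-fibre deliverable of the engine (`TteClosed c I g δ` of `TT/Eng/Two.lean`,
the ten dimensions of the addition script) together with `S10 = U_D` ("`0 + 0 = 0`"), on a nodal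
fibre `fib : TtnkFib …`, in the literal shape consumed by `tte_add_two` / `tte_idem`.
-/

set_option autoImplicit false
set_option linter.unusedSectionVars false
set_option linter.unusedVariables false

noncomputable section

namespace Fermat.Agent.TT

open AlgebraicCurve Module Fermat.Agent.V.RR Fermat.Agent.G Fermat.Agent.FF Fermat.Agent.MW17

variable {ι : ℕ → Type} [∀ i, Fintype (ι i)] {K F₁ F₂ : Type*} [Field K] [Field F₁] [Field F₂]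
  [Algebra K F₁] [Algebra K F₂] {g₁ g₂ : ℕ} {S : Type*} [Fintype S]
  {c : ∀ i j k : ℕ, ι i → ι j → ι k → K} (fib : TtnkFib ι K F₁ F₂ g₁ g₂ S c)

/-- **the closed-fibre deliverable**: `TteClosed` and `S10 = U_D` on the nodal fibre -/
theorem ttnk_closed (I : TteIn ι K) (D₁ X₁ : Divisor K F₁) (D₂ X₂ : Divisor K F₂)
    (hs : 1 ≤ Fintype.card S) (hdd₁0 : 0 ≤ fib.dd₁) (hdd₂0 : 0 ≤ fib.dd₂)
    (hD₁0 : 0 ≤ D₁) (hX₁0 : 0 ≤ X₁) (hD₂0 : 0 ≤ D₂) (hX₂0 : 0 ≤ X₂)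
    (hD₁deg : Divisor.degree D₁ = (g₁ : ℤ) - 1 + Fintype.card S)
    (hX₁deg : Divisor.degree X₁ = (g₁ : ℤ))
    (hD₂deg : Divisor.degree D₂ = (g₂ : ℤ))
    (hX₂deg : Divisor.degree X₂ = (g₂ : ℤ) - 1 + Fintype.card S)
    (hD₁ν : ∀ s, D₁ (fib.ν₁ s) = 0) (hX₁ν : ∀ s, X₁ (fib.ν₁ s) = 0)
    (hD₂ν : ∀ s, D₂ (fib.ν₂ s) = 0) (hX₂ν : ∀ s, X₂ (fib.ν₂ s) = 0)
    (hD : ttnkL fib.ν₁ fib.ν₂ D₁ D₂ = Submodule.span K {(1 : F₁ × F₂)})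
    (hX : ttnkL fib.ν₁ fib.ν₂ X₁ X₂ = Submodule.span K {(1 : F₁ × F₂)})
    (hδ₁ : 5 * (g₁ : ℤ) + 2 * Fintype.card S - 1 ≤ Divisor.degree fib.dd₁)
    (hδ₂ : 5 * (g₂ : ℤ) + 2 * Fintype.card S - 1 ≤ Divisor.degree fib.dd₂)
    (hUD : TtnkRepL fib 1 I.UD (fib.dd₁ - D₁) (fib.dd₂ - D₂))
    (hUD' : TtnkRepL fib 1 I.UD' (fib.dd₁ - D₁) (fib.dd₂ - D₂))
    (hUE : TtnkRepL fib 2 I.UE ((2 : ℕ) • D₁ + X₁) ((2 : ℕ) • D₂ + X₂))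
    (hUED : TtnkRepL fib 2 I.UED (D₁ + X₁) (D₂ + X₂))
    (hUED3 : TtnkRepL fib 3 I.UED3 (fib.dd₁ + D₁ + X₁) (fib.dd₂ + D₂ + X₂))
    (δ : ℤ) (hδ : Divisor.degree fib.dd₁ + Divisor.degree fib.dd₂ = δ)
    (g : ℕ) (hg : g + 1 = g₁ + g₂ + Fintype.card S) :
    TteClosed c I g δ ∧ tteS10 c I = I.UD := by
  have hg' : (g : ℤ) = (g₁ : ℤ) + g₂ + Fintype.card S - 1 := by
    have : ((g + 1 : ℕ) : ℤ) = ((g₁ + g₂ + Fintype.card S : ℕ) : ℤ) := by rw [hg]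
    push_cast at this
    linarith
  obtain ⟨h1, h2, h3, h4, h5, h6, h7, h8, h9, h10, heq⟩ :=
    ttnk_script fib I D₁ X₁ D₂ X₂ hs hdd₁0 hdd₂0 hD₁0 hX₁0 hD₂0 hX₂0 hD₁deg hX₁deg hD₂deg hX₂deg
      hD₁ν hX₁ν hD₂ν hX₂ν hD hX hδ₁ hδ₂ hUD hUD' hUE hUED hUED3 δ g hδ hg'
  refine ⟨⟨?_, ?_, h3, ?_, ?_, ?_, h7, ?_, ?_, ?_⟩, heq⟩ <;> omega

end Fermat.Agent.TT
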