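import Mathlib
import Fermat.Agent.TT.Nodal.Closed

/-!
# Program TT (S33), nodal closed fibre, part 9: the closed inputs as coordinate subspaces

Owner: helper25.  Namespace `Fermat.Agent.TT`, prefix `ttnk`.

* `ttnkU fib i A₁ A₂` : the coordinate subspace of level `i` of `L̃(A₁, A₂)` (the comap of `ttnkL`
  under the realization); `ttnk_repL_U` : it represents `L̃(A₁, A₂)` as soon as `A_j ≤ i•dd_j`;
* `ttnkIn fib D₁ X₁ D₂ X₂ : TteIn ι K` : the five closed inputs of the computation `0 + 0 = 0`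
  (`U_D = U_D' = U(𝔡̃ - D̃₀)`, `U_E = U(2D̃₀ + X̃₀)`, `U_ED = U(D̃₀ + X̃₀)`, `U_ED3 = U(𝔡̃ + D̃₀ + X̃₀)`);
* `ttnk_closed_U` : `TteClosed c (ttnkIn …) g δ ∧ tteS10 c (ttnkIn …) = ttnkU fib 1 (𝔡̃ - D̃₀)`
  for `D̃₀ + X̃₀ ≤ 𝔡̃`;
* `ttnk_finrank_U` : the dimensions of the input spaces.
-/

set_option autoImplicit false
set_option linter.unusedSectionVars false
set_option linter.unusedVariables false

noncomputable section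

namespace Fermat.Agent.TT

open AlgebraicCurve Module Fermat.Agent.V.RR Fermat.Agent.G Fermat.Agent.FF Fermat.Agent.MW17

variable {ι : ℕ → Type} [∀ i, Fintype (ι i)] {K F₁ F₂ : Type*} [Field K] [Field F₁] [Field F₂]
  [Algebra K F₁] [Algebra K F₂] {g₁ g₂ : ℕ} {S : Type*} [Fintype S]
  {c : ∀ i j k : ℕ, ι i → ι j → ι k → K} (fib : TtnkFib ι K F₁ F₂ g₁ g₂ S c)

/-- the coordinate subspace of level `i` of `L̃(A₁, A₂)` -/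
def ttnkU (i : ℕ) (A₁ : Divisor K F₁) (A₂ : Divisor K F₂) : Submodule K (ι i → K) :=
  (ttnkL fib.ν₁ fib.ν₂ A₁ A₂).comap (fib.coord.real i)

theorem ttnk_mem_U {i : ℕ} {A₁ : Divisor K F₁} {A₂ : Divisor K F₂} (v : ι i → K) :
    v ∈ ttnkU fib i A₁ A₂ ↔ fib.coord.real i v ∈ ttnkL fib.ν₁ fib.ν₂ A₁ A₂ := Iff.rfl

/-- the coordinate subspace represents `L̃(A₁, A₂)` when `A_j ≤ i•dd_j` -/
theorem ttnk_repL_U {i : ℕ} (h1 : 1 ≤ i) (h5 : i ≤ 5) {A₁ : Divisor K F₁} {A₂ : Divisor K F₂}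
    (hle₁ : A₁ ≤ i • fib.dd₁) (hle₂ : A₂ ≤ i • fib.dd₂) :
    TtnkRepL fib i (ttnkU fib i A₁ A₂) A₁ A₂ := by
  rw [TtnkRepL, TtnkRep, ttnkU, Submodule.map_comap_eq, inf_eq_right, fib.coord.range_real h1 h5,
    fib.hlvl i]
  exact ttnk_L_mono _ _ hle₁ hle₂

/-- a represented subspace is the coordinate subspace -/
theorem ttnk_eq_U {i : ℕ} (h1 : 1 ≤ i) (h5 : i ≤ 5) {U : Submodule K (ι i → K)}
    {A₁ : Divisor K F₁} {A₂ : Divisor K F₂} (h : TtnkRepL fib i U A₁ A₂) :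
    U = ttnkU fib i A₁ A₂ := by
  rw [ttnkU, ← h, Submodule.comap_map_eq_of_injective (fib.coord.real_injective h1 h5)]

/-- the five closed inputs of the computation `0 + 0 = 0` -/
def ttnkIn (D₁ X₁ : Divisor K F₁) (D₂ X₂ : Divisor K F₂) : TteIn ι K where
  UD := ttnkU fib 1 (fib.dd₁ - D₁) (fib.dd₂ - D₂)
  UD' := ttnkU fib 1 (fib.dd₁ - D₁) (fib.dd₂ - D₂)
  UE := ttnkU fib 2 ((2 : ℕ) • D₁ + X₁) ((2 : ℕ) • D₂ + X₂)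
  UED := ttnkU fib 2 (D₁ + X₁) (D₂ + X₂)
  UED3 := ttnkU fib 3 (fib.dd₁ + D₁ + X₁) (fib.dd₂ + D₂ + X₂)

section Le

variable {F : Type*} [Field F] [Algebra K F] {dd D X : Divisor K F}

theorem ttnk_le_aux1 (hD : 0 ≤ D) : dd - D ≤ (1 : ℕ) • dd := by
  rw [one_nsmul]
  exact sub_le_self _ hD

theorem ttnk_le_aux2 (hX : 0 ≤ X) (h : D + X ≤ dd) : (2 : ℕ) • D + X ≤ (2 : ℕ) • dd := by
  have h2 : (2 : ℕ) • (D + X) ≤ (2 : ℕ) • dd := nsmul_le_nsmul_right h 2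
  rw [two_nsmul, two_nsmul] at h2 ⊢
  have : D + D + X ≤ D + X + (D + X) := by
    have e : D + X + (D + X) = D + D + X + X := by abel
    rw [e]
    exact le_add_of_nonneg_right hX
  exact this.trans h2

theorem ttnk_le_aux3 (hdd : 0 ≤ dd) (h : D + X ≤ dd) : D + X ≤ (2 : ℕ) • dd := by
  rw [two_nsmul]
  exact h.trans (le_add_of_nonneg_right hdd)

theorem ttnk_le_aux4 (hdd : 0 ≤ dd) (h : D + X ≤ dd) : dd + D + X ≤ (3 : ℕ) • dd := by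
  have e : (3 : ℕ) • dd = dd + (dd + dd) := by
    rw [show (3 : ℕ) = 1 + 2 from rfl, add_nsmul, one_nsmul, two_nsmul]
  rw [e, add_assoc]
  exact add_le_add le_rfl (h.trans (le_add_of_nonneg_right hdd))

end Le

/-- **the closed-fibre deliverable on the coordinate subspaces** -/
theorem ttnk_closed_U (D₁ X₁ : Divisor K F₁) (D₂ X₂ : Divisor K F₂)
    (hs : 1 ≤ Fintype.card S)
    (hD₁0 : 0 ≤ D₁) (hX₁0 : 0 ≤ X₁) (hD₂0 : 0 ≤ D₂) (hX₂0 : 0 ≤ X₂)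
    (hle₁ : D₁ + X₁ ≤ fib.dd₁) (hle₂ : D₂ + X₂ ≤ fib.dd₂)
    (hD₁deg : Divisor.degree D₁ = (g₁ : ℤ) - 1 + Fintype.card S)
    (hX₁deg : Divisor.degree X₁ = (g₁ : ℤ))
    (hD₂deg : Divisor.degree D₂ = (g₂ : ℤ))
    (hX₂deg : Divisor.degree X₂ = (g₂ : ℤ) - 1 + Fintype.card S)
    (hD₁ν : ∀ s, D₁ (fib.ν₁ s) = 0) (hX₁ν : ∀ s, X₁ (fib.ν₁ s) = 0)
    (hD₂ν : ∀ s, D₂ (fib.ν₂ s) = 0) (hX₂ν : ∀ s, X₂ (fib.ν₂ s) = 0)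
    (hD : ttnkL fib.ν₁ fib.ν₂ D₁ D₂ = Submodule.span K {(1 : F₁ × F₂)})
    (hX : ttnkL fib.ν₁ fib.ν₂ X₁ X₂ = Submodule.span K {(1 : F₁ × F₂)})
    (hδ₁ : 5 * (g₁ : ℤ) + 2 * Fintype.card S - 1 ≤ Divisor.degree fib.dd₁)
    (hδ₂ : 5 * (g₂ : ℤ) + 2 * Fintype.card S - 1 ≤ Divisor.degree fib.dd₂)
    (δ : ℤ) (hδ : Divisor.degree fib.dd₁ + Divisor.degree fib.dd₂ = δ)
    (g : ℕ) (hg : g + 1 = g₁ + g₂ + Fintype.card S) :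
    TteClosed c (ttnkIn fib D₁ X₁ D₂ X₂) g δ ∧
      tteS10 c (ttnkIn fib D₁ X₁ D₂ X₂) = ttnkU fib 1 (fib.dd₁ - D₁) (fib.dd₂ - D₂) := by
  have hdd₁0 : 0 ≤ fib.dd₁ := (add_nonneg hD₁0 hX₁0).trans hle₁
  have hdd₂0 : 0 ≤ fib.dd₂ := (add_nonneg hD₂0 hX₂0).trans hle₂
  exact ttnk_closed fib (ttnkIn fib D₁ X₁ D₂ X₂) D₁ X₁ D₂ X₂ hs hdd₁0 hdd₂0 hD₁0 hX₁0 hD₂0 hX₂0
    hD₁deg hX₁deg hD₂deg hX₂deg hD₁ν hX₁ν hD₂ν hX₂ν hD hX hδ₁ hδ₂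
    (ttnk_repL_U fib le_rfl (by norm_num) (ttnk_le_aux1 hD₁0) (ttnk_le_aux1 hD₂0))
    (ttnk_repL_U fib le_rfl (by norm_num) (ttnk_le_aux1 hD₁0) (ttnk_le_aux1 hD₂0))
    (ttnk_repL_U fib (by norm_num) (by norm_num) (ttnk_le_aux2 hX₁0 hle₁) (ttnk_le_aux2 hX₂0 hle₂))
    (ttnk_repL_U fib (by norm_num) (by norm_num) (ttnk_le_aux3 hdd₁0 hle₁)
      (ttnk_le_aux3 hdd₂0 hle₂))
    (ttnk_repL_U fib (by norm_num) (by norm_num) (ttnk_le_aux4 hdd₁0 hle₁)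
      (ttnk_le_aux4 hdd₂0 hle₂))
    δ hδ g hg

/-- the dimension of a coordinate subspace in the non-special range -/
theorem ttnk_finrank_U {i : ℕ} (h1 : 1 ≤ i) (h5 : i ≤ 5) {A₁ : Divisor K F₁} {A₂ : Divisor K F₂}
    (hle₁ : A₁ ≤ i • fib.dd₁) (hle₂ : A₂ ≤ i • fib.dd₂)
    (hA₁ : ∀ s, A₁ (fib.ν₁ s) = 0) (hA₂ : ∀ s, A₂ (fib.ν₂ s) = 0)
    (hd₁ : 2 * (g₁ : ℤ) - 1 + Fintype.card S ≤ Divisor.degree A₁)
    (hd₂ : 2 * (g₂ : ℤ) - 1 ≤ Divisor.degree A₂) :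
    (finrank K (ttnkU fib i A₁ A₂) : ℤ) =
      Divisor.degree A₁ + Divisor.degree A₂ + 1 - ((g₁ : ℤ) + g₂ + Fintype.card S - 1) :=
  ttnk_repL_finrank_deg fib h1 h5 (ttnk_repL_U fib h1 h5 hle₁ hle₂) hA₁ hA₂ hd₁ hd₂

end Fermat.Agent.TT
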