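import Mathlib
import Fermat.Agent.FF.Core.AllSpare
import Fermat.Agent.TT.Nodal.Inputs

/-!
# Program TT (S33), nodal closed fibre, part 10: the `X₀(M)`-instance of the component data

Owner: helper25.  Namespace `Fermat.Agent.TT`, prefix `ttnk`.

Everything of `TtnkFib` that does NOT depend on the two-valuation layer (`TT/Red2`): both components
of the closed fibre of `X₀(pM)` at `p` are the curve `F_k(M) = modularFunctionFieldFullC k M` over
`k = ResidueField 𝔸` (`𝔸` over `p`, `FfGoodLevel M p`):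

* `ttnk_inst_bundle` : `V27RR k F_k(M) g_M` with `g_M = genusFF ℚ̄ F_ℚ̄(M)`, all places of degree one,
  `k` infinite, infinitely many places (main's `ffii_bundle` behind `ffcz_atlas`);
* `ttnk_inst_origin` : for ANY injective node families `ν₁ ν₂ : S → Place k F_k(M)`, `#S ≥ 1`, and
  finite sets `T₁ T₂` to avoid, the divisors `D̃₀`, `X̃₀` of the origin computation
  (`ttnk_exists_origin_full` at this instance).
-/

set_option autoImplicit false
set_option linter.unusedSectionVars false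
set_option linter.unusedVariables false

noncomputable section

namespace Fermat.Agent.TT

open AlgebraicCurve ModularCurve IsLocalRing Module Fermat.Agent.V.RR Fermat.Agent.G Fermat.Agent.FF

variable (M : ℕ) [NeZero M] {p : ℕ} [Fact p.Prime] (𝔸 : ValuationSubring FfQb)

/-- Riemann–Roch and the numerical data on one component `F_k(M)` of the closed fibre -/
theorem ttnk_inst_bundle (hA : 𝔸.LiesOverPrime p) (h : FfGoodLevel M p) :
    V27RR (ResidueField 𝔸) (modularFunctionFieldFullC (ResidueField 𝔸) M)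
        (genusFF FfQb (modularFunctionFieldBar M)) ∧
      (∀ Q : Place (ResidueField 𝔸) (modularFunctionFieldFullC (ResidueField 𝔸) M), Q.deg = 1) ∧
      Infinite (ResidueField 𝔸) ∧
      Infinite (Place (ResidueField 𝔸) (modularFunctionFieldFullC (ResidueField 𝔸) M)) := by
  obtain ⟨τ, τ', hat⟩ := ffcz_atlas M 𝔸 hA h
  obtain ⟨-, RRk, -, hdegk, hinf, hinfP, -⟩ := ffii_bundle M 𝔸 h.1 hA hat
  exact ⟨RRk, hdegk, hinf, hinfP⟩

/-- the divisors `D̃₀`, `X̃₀` of the origin computation on the closed fibre of `X₀(pM)` -/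
theorem ttnk_inst_origin (hA : 𝔸.LiesOverPrime p) (h : FfGoodLevel M p) {S : Type*} [Fintype S]
    (ν₁ ν₂ : S → Place (ResidueField 𝔸) (modularFunctionFieldFullC (ResidueField 𝔸) M))
    (hν₁ : Function.Injective ν₁) (hν₂ : Function.Injective ν₂) (hs : 1 ≤ Fintype.card S)
    (T₁ T₂ : Finset (Place (ResidueField 𝔸) (modularFunctionFieldFullC (ResidueField 𝔸) M))) :
    ∃ (D₁ X₁ D₂ X₂ : Divisor (ResidueField 𝔸) (modularFunctionFieldFullC (ResidueField 𝔸) M)),
      (0 ≤ D₁ ∧ 0 ≤ X₁ ∧ 0 ≤ D₂ ∧ 0 ≤ X₂) ∧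
      (Divisor.degree D₁ = (genusFF FfQb (modularFunctionFieldBar M) : ℤ) - 1 + Fintype.card S ∧
        Divisor.degree X₁ = (genusFF FfQb (modularFunctionFieldBar M) : ℤ) ∧
        Divisor.degree D₂ = (genusFF FfQb (modularFunctionFieldBar M) : ℤ) ∧
        Divisor.degree X₂ =
          (genusFF FfQb (modularFunctionFieldBar M) : ℤ) - 1 + Fintype.card S) ∧
      ((∀ P ∈ T₁, D₁ P = 0) ∧ (∀ P ∈ T₁, X₁ P = 0) ∧ (∀ P ∈ T₂, D₂ P = 0) ∧
        (∀ P ∈ T₂, X₂ P = 0)) ∧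
      ((∀ i, D₁ (ν₁ i) = 0) ∧ (∀ i, X₁ (ν₁ i) = 0) ∧ (∀ i, D₂ (ν₂ i) = 0) ∧
        (∀ i, X₂ (ν₂ i) = 0)) ∧
      ((∀ P, D₁ P ≤ 1) ∧ (∀ P, X₁ P ≤ 1) ∧ (∀ P, D₂ P ≤ 1) ∧ (∀ P, X₂ P ≤ 1)) ∧
      (riemannRochSpace (D₁ - ttnkN ν₁) = ⊥ ∧ riemannRochSpace (X₁ - ttnkN ν₁) = ⊥ ∧
        riemannRochSpace (D₂ - ttnkN ν₂) = ⊥ ∧ riemannRochSpace (X₂ - ttnkN ν₂) = ⊥) ∧
      (finrank (ResidueField 𝔸) (riemannRochSpace X₁) = 1 ∧
        finrank (ResidueField 𝔸) (riemannRochSpace D₂) = 1) ∧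
      ttnkL ν₁ ν₂ D₁ D₂ = Submodule.span (ResidueField 𝔸)
        {(1 : modularFunctionFieldFullC (ResidueField 𝔸) M ×
          modularFunctionFieldFullC (ResidueField 𝔸) M)} ∧
      ttnkL ν₁ ν₂ X₁ X₂ = Submodule.span (ResidueField 𝔸)
        {(1 : modularFunctionFieldFullC (ResidueField 𝔸) M ×
          modularFunctionFieldFullC (ResidueField 𝔸) M)} := by
  obtain ⟨RRk, hdegk, hinf, -⟩ := ttnk_inst_bundle M 𝔸 hA h
  have := hinf
  exact ttnk_exists_origin_full ν₁ ν₂ RRk RRk hdegk hdegk hν₁ hν₂ hs T₁ T₂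

end Fermat.Agent.TT
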