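import Mathlib
import Fermat.Agent.FF.KMPoints
import Fermat.Agent.G.Red.Val

/-!
# Program TT (S33): saturating general position on one component (spare of helper25's General.lean)

Owner: helper28.  Namespace `Fermat.Agent.TT`, prefix `ttng`.

`F / K` with `R : V27RR K F g`, all places of degree one, `K` infinite.

* `ttng_points` : **saturating general position**: for finitely many divisors `X i`, a finite set
  `T` and ANY `n` there are `n` distinct places off `T` with
  `l(X i - ∑ pts) = l(X i) - n` (truncated subtraction) for all `i`;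
* `ttng_spec` : `i(E) := l(W - E)` for the canonical divisor `W` of `R.can`;
* `ttng_add` : the Riemann-Roch dual: `l(E i + ∑ pts) = deg (E i) + n + 1 - g + (i(E i) - n)`.
-/

set_option autoImplicit false
set_option linter.unusedSectionVars false
set_option linter.unusedVariables false

noncomputable section

namespace Fermat.Agent.TT

open AlgebraicCurve Module Fermat.Agent.V.RR Fermat.Agent.V Fermat.Agent.MW17 Fermat.Agent.FF

variable {K F : Type*} [Field K] [Field F] [Algebra K F] {g : ℕ}

/-- **saturating general position** -/
theorem ttng_points [Infinite K] (R : V27RR K F g)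
    (hdeg1 : ∀ v : Place K F, v.deg = 1) {ι : Type*} [Finite ι] (X : ι → Divisor K F)
    (T : Finset (Place K F)) (n : ℕ) :
    ∃ pts : Fin n → Place K F, Function.Injective pts ∧ (∀ j, pts j ∉ T) ∧
      ∀ i, finrank K (riemannRochSpace (X i - ∑ j, Finsupp.single (pts j) 1)) =
        finrank K (riemannRochSpace (X i)) - n := by
  classical
  cases nonempty_fintype ι
  induction n with
  | zero =>
    refine ⟨Fin.elim0, fun a => a.elim0, fun a => a.elim0, fun i => ?_⟩
    rw [Finset.univ_eq_empty, Finset.sum_empty, sub_zero, Nat.sub_zero]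
  | succ n ih =>
    obtain ⟨pts, hinj, hT, hl⟩ := ih
    set E : Divisor K F := ∑ j, Finsupp.single (pts j) 1 with hE
    have hS : ∀ i, ∃ S : Finset (Place K F), ∀ P : Place K F, P ∉ S →
        finrank K (riemannRochSpace (X i - E - Finsupp.single P 1)) =
          finrank K (riemannRochSpace (X i - E)) - 1 := by
      intro i
      by_cases hpos : 0 < finrank K (riemannRochSpace (X i - E))
      · obtain ⟨S, hS⟩ := ffkg_exists_finset_good R hdeg1 (X i - E) hpos
        exact ⟨S, fun P hP => by have := hS P hP; omega⟩
      · refine ⟨∅, fun P _ => ?_⟩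
        have h0 : finrank K (riemannRochSpace (X i - E)) = 0 := by omega
        have hfin : Module.Finite K (riemannRochSpace (X i - E)) := R.finL _
        have hbot : riemannRochSpace (X i - E) = ⊥ := Submodule.finrank_eq_zero.mp h0
        have hle : riemannRochSpace (X i - E - Finsupp.single P 1) ≤ riemannRochSpace (X i - E) :=
          ffkm_mono (by rw [sub_le_self_iff]; exact Finsupp.single_nonneg.mpr zero_le_one)
        rw [hbot, le_bot_iff] at hle
        rw [hle, h0, finrank_bot]
    choose S hS using hS
    obtain ⟨P, hP⟩ := ffkg_exists_place_not_mem R hdeg1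
      (T ∪ Finset.univ.image pts ∪ Finset.univ.biUnion S)
    rw [Finset.mem_union, Finset.mem_union, not_or, not_or] at hP
    obtain ⟨⟨hPT, hPE⟩, hPS⟩ := hP
    refine ⟨Fin.cons P pts, ?_, ?_, ?_⟩
    · rw [Fin.cons_injective_iff]
      refine ⟨?_, hinj⟩
      rintro ⟨j, hj⟩
      exact hPE (Finset.mem_image.mpr ⟨j, Finset.mem_univ j, hj⟩)
    · intro j
      refine Fin.cases ?_ (fun j => ?_) j
      · simpa using hPT
      · simpa using hT j
    · intro i
      have h1 := hS i P (fun h => hPS (Finset.mem_biUnion.mpr ⟨i, Finset.mem_univ i, h⟩))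
      have h2 := hl i
      have e : X i - ∑ j, Finsupp.single ((Fin.cons P pts : Fin (n + 1) → Place K F) j) 1 =
          X i - E - Finsupp.single P 1 := by
        rw [Fin.sum_univ_succ]
        simp only [Fin.cons_zero, Fin.cons_succ]
        rw [← hE]
        abel
      rw [e, h1, h2]
      omega

/-- the degree of a sum of `n` points (all places of degree one) -/
theorem ttng_degree_sum (hdeg1 : ∀ v : Place K F, v.deg = 1) {n : ℕ} (pts : Fin n → Place K F) :
    Divisor.degree (∑ j, Finsupp.single (pts j) (1 : ℤ)) = n := by
  rw [map_sum]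
  simp [Divisor.degree_single, hdeg1]

/-- a sum of points is effective -/
theorem ttng_sum_nonneg {n : ℕ} (pts : Fin n → Place K F) :
    (0 : Divisor K F) ≤ ∑ j, Finsupp.single (pts j) (1 : ℤ) :=
  Finset.sum_nonneg fun j _ => Finsupp.single_nonneg.mpr zero_le_one

/-- **general position, both directions at once**: `n` general points are subtracted from the
divisors `X i` and added to the divisors `E i'`; `W` is a canonical divisor. -/
theorem ttng_points_add [Infinite K] (R : V27RR K F g)
    (hdeg1 : ∀ v : Place K F, v.deg = 1) (W : Divisor K F)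
    (hW : ∀ D : Divisor K F, (finrank K (riemannRochSpace D) : ℤ) =
      Divisor.degree D + 1 - g + finrank K (riemannRochSpace (W - D)))
    {ι ι' : Type*} [Finite ι] [Finite ι'] (X : ι → Divisor K F) (E : ι' → Divisor K F)
    (T : Finset (Place K F)) (n : ℕ) :
    ∃ pts : Fin n → Place K F, Function.Injective pts ∧ (∀ j, pts j ∉ T) ∧
      (∀ i, finrank K (riemannRochSpace (X i - ∑ j, Finsupp.single (pts j) 1)) =
        finrank K (riemannRochSpace (X i)) - n) ∧
      ∀ i, (finrank K (riemannRochSpace (E i + ∑ j, Finsupp.single (pts j) 1)) : ℤ) =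
        Divisor.degree (E i) + n + 1 - g +
          ((finrank K (riemannRochSpace (W - E i)) - n : ℕ) : ℤ) := by
  obtain ⟨pts, hinj, hT, hl⟩ := ttng_points R hdeg1
    (Sum.elim X fun i => W - E i) T n
  refine ⟨pts, hinj, hT, fun i => hl (Sum.inl i), fun i => ?_⟩
  have h1 : finrank K (riemannRochSpace (W - E i - ∑ j, Finsupp.single (pts j) 1)) =
      finrank K (riemannRochSpace (W - E i)) - n := hl (Sum.inr i)
  have h2 := hW (E i + ∑ j, Finsupp.single (pts j) 1)
  have e : W - (E i + ∑ j, Finsupp.single (pts j) 1) = W - E i - ∑ j, Finsupp.single (pts j) 1 := by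
    abel
  rw [e, h1, map_add, ttng_degree_sum hdeg1] at h2
  rw [h2]

end Fermat.Agent.TT
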