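import Mathlib
import Fermat.Agent.TT.Nodal.Space
import Fermat.Agent.TT.Nodal.GenPos

/-!
# Program TT (S33), nodal closed fibre: evaluation points in general position

Owner: helper28.  Namespace `Fermat.Agent.TT`, prefix `ttng`.

Two components `F₁, F₂ / K` with Riemann-Roch, all places of degree one, `K` infinite.  For a
finite-dimensional space `M` of pairs `(f₁, f₂) ∈ L(A₁) × L(A₂)` (e.g. `M = L̃(A₁, A₂) = ttnkL …` of
helper25) and ANY `n ≥ dim M` there are `n` smooth points of the two components - `n₁` on the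
first, `n₂` on the second, `n₁ + n₂ = n`, pairwise distinct, off given finite sets `T₁`, `T₂` and
off the supports of `A₁`, `A₂` - such that an element of `M` vanishing at all of them is zero.
This is the hypothesis `hgen` of helper26's interpolation theorem `ttb_interp` on the closed fibre.

* `ttngZ₁ P`, `ttngZ₂ Q` : the pairs whose first (second) component has the value `0` at `P` (`Q`);
* `ttng_kill` : the kill theorem (values as `GrdVal … 0`);
* `ttngEvk₁`, `ttngEvk₂` : the evaluation functionals on a subspace of `L(A₁) × L(A₂)`;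
* `ttng_kill_ev` : the kill theorem in functional form (index type `Fin n₁ ⊕ Fin n₂`).
-/

set_option autoImplicit false
set_option linter.unusedSectionVars false
set_option linter.unusedVariables false

noncomputable section

namespace Fermat.Agent.TT

open AlgebraicCurve Module Fermat.Agent.V.RR Fermat.Agent.G Fermat.Agent.FF

variable {K F₁ F₂ : Type*} [Field K] [Field F₁] [Field F₂] [Algebra K F₁] [Algebra K F₂]
  {g₁ g₂ : ℕ}

/-- pairs whose first component vanishes at `P` -/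
def ttngZ₁ (P : Place K F₁) : Submodule K (F₁ × F₂) where
  carrier := {f | GrdVal P f.1 0}
  zero_mem' := ttnk_val_zero P
  add_mem' := fun {f h} hf hh => by
    have := grdg_val_add P hf hh
    rwa [add_zero] at this
  smul_mem' := fun a f hf => by
    have := ttnk_val_smul P a hf
    rw [mul_zero] at this
    show GrdVal P (a • f).1 0
    rw [Prod.smul_fst]
    exact this

/-- pairs whose second component vanishes at `Q` -/
def ttngZ₂ (Q : Place K F₂) : Submodule K (F₁ × F₂) where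
  carrier := {f | GrdVal Q f.2 0}
  zero_mem' := ttnk_val_zero Q
  add_mem' := fun {f h} hf hh => by
    have := grdg_val_add Q hf hh
    rwa [add_zero] at this
  smul_mem' := fun a f hf => by
    have := ttnk_val_smul Q a hf
    rw [mul_zero] at this
    show GrdVal Q (a • f).2 0
    rw [Prod.smul_snd]
    exact this

theorem ttng_mem_Z₁ {P : Place K F₁} {f : F₁ × F₂} :
    f ∈ ttngZ₁ (F₂ := F₂) P ↔ GrdVal P f.1 0 := Iff.rfl

theorem ttng_mem_Z₂ {Q : Place K F₂} {f : F₁ × F₂} :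
    f ∈ ttngZ₂ (F₁ := F₁) Q ↔ GrdVal Q f.2 0 := Iff.rfl

/-- a non-zero function has a non-zero value at all places outside a finite set -/
theorem ttng_exists_finset_ne {F : Type*} [Field F] [Algebra K F] {g : ℕ} (R : V27RR K F g)
    {x : F} (hx : x ≠ 0) : ∃ S : Finset (Place K F), ∀ P : Place K F, P ∉ S → ¬ GrdVal P x 0 := by
  classical
  have := R.hasDiv
  obtain ⟨Dx, hDx, -⟩ := HasPrincipalDivisors.exists_divisor (K := K) x hx
  refine ⟨Dx.support, fun P hP h0 => ?_⟩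
  have h1 : Dx P = 0 := Finsupp.notMem_support_iff.mp hP
  rw [hDx P] at h1
  exact ttnk_val_ne_zero P hx h1 h0 rfl

/-- **the kill theorem**: `n ≥ dim M` smooth points in general position. -/
theorem ttng_kill [Infinite K] (R₁ : V27RR K F₁ g₁) (R₂ : V27RR K F₂ g₂)
    (hdeg₁ : ∀ v : Place K F₁, v.deg = 1) (hdeg₂ : ∀ v : Place K F₂, v.deg = 1)
    (A₁ : Divisor K F₁) (A₂ : Divisor K F₂) (n : ℕ) :
    ∀ (T₁ : Finset (Place K F₁)) (T₂ : Finset (Place K F₂)) (M : Submodule K (F₁ × F₂))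
      [FiniteDimensional K M], finrank K M ≤ n →
      ∃ (n₁ n₂ : ℕ) (_ : n₁ + n₂ = n) (pts₁ : Fin n₁ → Place K F₁) (pts₂ : Fin n₂ → Place K F₂),
        Function.Injective pts₁ ∧ Function.Injective pts₂ ∧
        (∀ j, pts₁ j ∉ T₁) ∧ (∀ j, pts₂ j ∉ T₂) ∧
        (∀ j, A₁ (pts₁ j) = 0) ∧ (∀ j, A₂ (pts₂ j) = 0) ∧
        ∀ f ∈ M, (∀ j, GrdVal (pts₁ j) f.1 0) → (∀ j, GrdVal (pts₂ j) f.2 0) → f = 0 := by
  classical
  induction n with
  | zero =>
    intro T₁ T₂ M _ hM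
    have hbot : M = ⊥ := Submodule.finrank_eq_zero.mp (Nat.le_zero.mp hM)
    refine ⟨0, 0, rfl, Fin.elim0, Fin.elim0, fun a => a.elim0, fun a => a.elim0,
      fun a => a.elim0, fun a => a.elim0, fun a => a.elim0, fun a => a.elim0, ?_⟩
    intro f hf _ _
    rw [hbot] at hf
    exact (Submodule.mem_bot K).mp hf
  | succ n ih =>
    intro T₁ T₂ M _ hM
    by_cases hbot : M = ⊥
    · -- an arbitrary point on the first component
      obtain ⟨P, hP⟩ := ffkg_exists_place_not_mem R₁ hdeg₁ (T₁ ∪ A₁.support)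
      rw [Finset.mem_union, not_or] at hP
      obtain ⟨n₁, n₂, hn, pts₁, pts₂, hi₁, hi₂, hT₁, hT₂, hA₁, hA₂, -⟩ :=
        ih (insert P T₁) T₂ M (by rw [hbot, finrank_bot]; exact Nat.zero_le _)
      refine ⟨n₁ + 1, n₂, by omega, Fin.cons P pts₁, pts₂, ?_, hi₂, ?_, hT₂, ?_, hA₂, ?_⟩
      · rw [Fin.cons_injective_iff]
        refine ⟨?_, hi₁⟩
        rintro ⟨j, hj⟩
        exact hT₁ j (hj ▸ Finset.mem_insert_self P T₁)
      · intro j
        refine Fin.cases ?_ (fun j => ?_) j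
        · simpa using hP.1
        · simpa using fun h => hT₁ j (Finset.mem_insert_of_mem h)
      · intro j
        refine Fin.cases ?_ (fun j => ?_) j
        · simpa using Finsupp.notMem_support_iff.mp hP.2
        · simpa using hA₁ j
      · intro f hf _ _
        rw [hbot] at hf
        exact (Submodule.mem_bot K).mp hf
    · obtain ⟨f, hfM, hf0⟩ := Submodule.exists_mem_ne_zero_of_ne_bot hbot
      by_cases hf1 : f.1 = 0
      · -- a point on the second component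
        have hf2 : f.2 ≠ 0 := fun h => hf0 (Prod.ext hf1 h)
        obtain ⟨S, hS⟩ := ttng_exists_finset_ne R₂ hf2
        obtain ⟨Q, hQ⟩ := ffkg_exists_place_not_mem R₂ hdeg₂ (T₂ ∪ A₂.support ∪ S)
        rw [Finset.mem_union, Finset.mem_union, not_or, not_or] at hQ
        obtain ⟨⟨hQT, hQA⟩, hQS⟩ := hQ
        have hlt : M ⊓ ttngZ₂ Q < M := by
          refine lt_of_le_of_ne inf_le_left fun h => ?_
          have : f ∈ M ⊓ ttngZ₂ (F₁ := F₁) Q := by rw [h]; exact hfM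
          exact hS Q hQS this.2
        have hfin : FiniteDimensional K ↥(M ⊓ ttngZ₂ (F₁ := F₁) Q) :=
          Submodule.finiteDimensional_of_le inf_le_left
        have hrk := Submodule.finrank_lt_finrank_of_lt hlt
        obtain ⟨n₁, n₂, hn, pts₁, pts₂, hi₁, hi₂, hT₁, hT₂, hA₁, hA₂, hkill⟩ :=
          ih T₁ (insert Q T₂) (M ⊓ ttngZ₂ Q) (by omega)
        refine ⟨n₁, n₂ + 1, by omega, pts₁, Fin.cons Q pts₂, hi₁, ?_, hT₁, ?_, hA₁, ?_, ?_⟩
        · rw [Fin.cons_injective_iff]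
          refine ⟨?_, hi₂⟩
          rintro ⟨j, hj⟩
          exact hT₂ j (hj ▸ Finset.mem_insert_self Q T₂)
        · intro j
          refine Fin.cases ?_ (fun j => ?_) j
          · simpa using hQT
          · simpa using fun h => hT₂ j (Finset.mem_insert_of_mem h)
        · intro j
          refine Fin.cases ?_ (fun j => ?_) j
          · simpa using Finsupp.notMem_support_iff.mp hQA
          · simpa using hA₂ j
        · intro h hh h1 h2
          refine hkill h ⟨hh, ttng_mem_Z₂.mpr ?_⟩ h1 fun j => ?_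
          · simpa using h2 0
          · simpa using h2 j.succ
      · -- a point on the first component
        obtain ⟨S, hS⟩ := ttng_exists_finset_ne R₁ hf1
        obtain ⟨P, hP⟩ := ffkg_exists_place_not_mem R₁ hdeg₁ (T₁ ∪ A₁.support ∪ S)
        rw [Finset.mem_union, Finset.mem_union, not_or, not_or] at hP
        obtain ⟨⟨hPT, hPA⟩, hPS⟩ := hP
        have hlt : M ⊓ ttngZ₁ P < M := by
          refine lt_of_le_of_ne inf_le_left fun h => ?_
          have : f ∈ M ⊓ ttngZ₁ (F₂ := F₂) P := by rw [h]; exact hfM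
          exact hS P hPS this.2
        have hfin : FiniteDimensional K ↥(M ⊓ ttngZ₁ (F₂ := F₂) P) :=
          Submodule.finiteDimensional_of_le inf_le_left
        have hrk := Submodule.finrank_lt_finrank_of_lt hlt
        obtain ⟨n₁, n₂, hn, pts₁, pts₂, hi₁, hi₂, hT₁, hT₂, hA₁, hA₂, hkill⟩ :=
          ih (insert P T₁) T₂ (M ⊓ ttngZ₁ P) (by omega)
        refine ⟨n₁ + 1, n₂, by omega, Fin.cons P pts₁, pts₂, ?_, hi₂, ?_, hT₂, ?_, hA₂, ?_⟩
        · rw [Fin.cons_injective_iff]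
          refine ⟨?_, hi₁⟩
          rintro ⟨j, hj⟩
          exact hT₁ j (hj ▸ Finset.mem_insert_self P T₁)
        · intro j
          refine Fin.cases ?_ (fun j => ?_) j
          · simpa using hPT
          · simpa using fun h => hT₁ j (Finset.mem_insert_of_mem h)
        · intro j
          refine Fin.cases ?_ (fun j => ?_) j
          · simpa using Finsupp.notMem_support_iff.mp hPA
          · simpa using hA₁ j
        · intro h hh h1 h2
          refine hkill h ⟨hh, ttng_mem_Z₁.mpr ?_⟩ (fun j => ?_) h2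
          · simpa using h1 0
          · simpa using h1 j.succ

/-! ### functional form (the shape of `hgen` in helper26's `ttb_interp`) -/

section Ev

variable (hdeg₁ : ∀ v : Place K F₁, v.deg = 1) (hdeg₂ : ∀ v : Place K F₂, v.deg = 1)
  {A₁ : Divisor K F₁} {A₂ : Divisor K F₂} {M : Submodule K (F₁ × F₂)}
  (hM : M ≤ (riemannRochSpace A₁).prod (riemannRochSpace A₂))
  {n₁ n₂ : ℕ} (pts₁ : Fin n₁ → Place K F₁) (pts₂ : Fin n₂ → Place K F₂)
  (hA₁ : ∀ j, A₁ (pts₁ j) = 0) (hA₂ : ∀ j, A₂ (pts₂ j) = 0)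

/-- the first projection `M → L(A₁)` -/
def ttngFst : M →ₗ[K] riemannRochSpace A₁ :=
  LinearMap.codRestrict _ ((LinearMap.fst K F₁ F₂).comp M.subtype) fun f => (hM f.2).1

/-- the second projection `M → L(A₂)` -/
def ttngSnd : M →ₗ[K] riemannRochSpace A₂ :=
  LinearMap.codRestrict _ ((LinearMap.snd K F₁ F₂).comp M.subtype) fun f => (hM f.2).2

theorem ttngFst_coe (f : M) : ((ttngFst hM f : riemannRochSpace A₁) : F₁) = (f : F₁ × F₂).1 := rfl

theorem ttngSnd_coe (f : M) : ((ttngSnd hM f : riemannRochSpace A₂) : F₂) = (f : F₁ × F₂).2 := rfl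

/-- the evaluation functionals on a space `M ≤ L(A₁) × L(A₂)` of pairs at `n₁` points of the first
and `n₂` points of the second component (all of degree one, off the supports of `A₁`, `A₂`). -/
def ttngEvk : Fin n₁ ⊕ Fin n₂ → M →ₗ[K] K :=
  Sum.elim
    (fun j => (LinearMap.proj j).comp ((ttnkEv pts₁ hdeg₁ A₁ hA₁).comp (ttngFst hM)))
    (fun j => (LinearMap.proj j).comp ((ttnkEv pts₂ hdeg₂ A₂ hA₂).comp (ttngSnd hM)))

/-- `ttngEvk (inl j) f` is the value of the first component of `f` at `pts₁ j` -/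
theorem ttngEvk_inl (f : M) (j : Fin n₁) :
    GrdVal (pts₁ j) (f : F₁ × F₂).1 (ttngEvk hdeg₁ hdeg₂ hM pts₁ pts₂ hA₁ hA₂ (Sum.inl j) f) :=
  ttnkEv_spec pts₁ hdeg₁ A₁ hA₁ (ttngFst hM f) j

/-- `ttngEvk (inr j) f` is the value of the second component of `f` at `pts₂ j` -/
theorem ttngEvk_inr (f : M) (j : Fin n₂) :
    GrdVal (pts₂ j) (f : F₁ × F₂).2 (ttngEvk hdeg₁ hdeg₂ hM pts₁ pts₂ hA₁ hA₂ (Sum.inr j) f) :=
  ttnkEv_spec pts₂ hdeg₂ A₂ hA₂ (ttngSnd hM f) j

theorem ttngEvk_inl_eq (f : M) (j : Fin n₁) {c : K} (hc : GrdVal (pts₁ j) (f : F₁ × F₂).1 c) :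
    ttngEvk hdeg₁ hdeg₂ hM pts₁ pts₂ hA₁ hA₂ (Sum.inl j) f = c :=
  grdg_val_unique (pts₁ j) (ttngEvk_inl hdeg₁ hdeg₂ hM pts₁ pts₂ hA₁ hA₂ f j) hc

theorem ttngEvk_inr_eq (f : M) (j : Fin n₂) {c : K} (hc : GrdVal (pts₂ j) (f : F₁ × F₂).2 c) :
    ttngEvk hdeg₁ hdeg₂ hM pts₁ pts₂ hA₁ hA₂ (Sum.inr j) f = c :=
  grdg_val_unique (pts₂ j) (ttngEvk_inr hdeg₁ hdeg₂ hM pts₁ pts₂ hA₁ hA₂ f j) hc

end Ev

theorem ttng_card_sum (n₁ n₂ : ℕ) : Fintype.card (Fin n₁ ⊕ Fin n₂) = n₁ + n₂ := by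
  rw [Fintype.card_sum, Fintype.card_fin, Fintype.card_fin]

/-- **the kill theorem, functional form**: for a finite-dimensional `M ≤ L(A₁) × L(A₂)` and
`n ≥ dim M` there are `n = n₁ + n₂` points such that the `n` evaluation functionals `ttngEvk`
have no common zero in `M` except `0`. -/
theorem ttng_kill_ev [Infinite K] (R₁ : V27RR K F₁ g₁) (R₂ : V27RR K F₂ g₂)
    (hdeg₁ : ∀ v : Place K F₁, v.deg = 1) (hdeg₂ : ∀ v : Place K F₂, v.deg = 1)
    {A₁ : Divisor K F₁} {A₂ : Divisor K F₂} (T₁ : Finset (Place K F₁)) (T₂ : Finset (Place K F₂))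
    (M : Submodule K (F₁ × F₂)) [FiniteDimensional K M]
    (hM : M ≤ (riemannRochSpace A₁).prod (riemannRochSpace A₂)) (n : ℕ) (hn : finrank K M ≤ n) :
    ∃ (n₁ n₂ : ℕ) (_ : n₁ + n₂ = n) (pts₁ : Fin n₁ → Place K F₁) (pts₂ : Fin n₂ → Place K F₂)
      (hA₁ : ∀ j, A₁ (pts₁ j) = 0) (hA₂ : ∀ j, A₂ (pts₂ j) = 0),
      Function.Injective pts₁ ∧ Function.Injective pts₂ ∧
      (∀ j, pts₁ j ∉ T₁) ∧ (∀ j, pts₂ j ∉ T₂) ∧
      ∀ c : M, (∀ i, ttngEvk hdeg₁ hdeg₂ hM pts₁ pts₂ hA₁ hA₂ i c = 0) → c = 0 := by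
  obtain ⟨n₁, n₂, hsum, pts₁, pts₂, hi₁, hi₂, hT₁, hT₂, hA₁, hA₂, hkill⟩ :=
    ttng_kill R₁ R₂ hdeg₁ hdeg₂ A₁ A₂ n T₁ T₂ M hn
  refine ⟨n₁, n₂, hsum, pts₁, pts₂, hA₁, hA₂, hi₁, hi₂, hT₁, hT₂, fun c hc => ?_⟩
  apply Subtype.ext
  refine hkill c c.2 (fun j => ?_) fun j => ?_
  · have := ttngEvk_inl hdeg₁ hdeg₂ hM pts₁ pts₂ hA₁ hA₂ c j
    rwa [hc (Sum.inl j)] at this
  · have := ttngEvk_inr hdeg₁ hdeg₂ hM pts₁ pts₂ hA₁ hA₂ c j
    rwa [hc (Sum.inr j)] at this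

/-- the nodal space `L̃(A₁, A₂)` sits in `L(A₁) × L(A₂)` -/
theorem ttng_L_le {ι : Type*} [Fintype ι] (ν₁ : ι → Place K F₁) (ν₂ : ι → Place K F₂)
    (A₁ : Divisor K F₁) (A₂ : Divisor K F₂) :
    ttnkL ν₁ ν₂ A₁ A₂ ≤ (riemannRochSpace A₁).prod (riemannRochSpace A₂) :=
  fun f hf => ⟨hf.1, hf.2.1⟩

/-- `L̃(A₁, A₂)` is finite-dimensional -/
theorem ttng_L_finite {ι : Type*} [Fintype ι] (ν₁ : ι → Place K F₁) (ν₂ : ι → Place K F₂)
    (R₁ : V27RR K F₁ g₁) (R₂ : V27RR K F₂ g₂) (A₁ : Divisor K F₁) (A₂ : Divisor K F₂) :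
    FiniteDimensional K ↥(ttnkL ν₁ ν₂ A₁ A₂) := by
  have h1 : Module.Finite K ↥(riemannRochSpace A₁) := R₁.finL A₁
  have h2 : Module.Finite K ↥(riemannRochSpace A₂) := R₂.finL A₂
  have hsurj : Function.Surjective
      (LinearMap.codRestrict ((riemannRochSpace A₁).prod (riemannRochSpace A₂))
        ((riemannRochSpace A₁).subtype.prodMap (riemannRochSpace A₂).subtype)
        (fun f => ⟨f.1.2, f.2.2⟩)) := by
    rintro ⟨f, hf⟩
    exact ⟨(⟨f.1, hf.1⟩, ⟨f.2, hf.2⟩), rfl⟩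
  have : FiniteDimensional K ↥((riemannRochSpace A₁).prod (riemannRochSpace A₂)) :=
    Module.Finite.of_surjective _ hsurj
  exact Submodule.finiteDimensional_of_le (ttng_L_le ν₁ ν₂ A₁ A₂)

/-- **(GP4)** the `hgen` points on the nodal fibre: `n ≥ l̃(Ã)` smooth points, off the nodes if the
nodes are put into `T₁`, `T₂`, whose evaluation functionals on `L̃(A₁, A₂)` have no common zero. -/
theorem ttng_kill_nodal [Infinite K] {ι : Type*} [Fintype ι] (ν₁ : ι → Place K F₁)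
    (ν₂ : ι → Place K F₂) (R₁ : V27RR K F₁ g₁) (R₂ : V27RR K F₂ g₂)
    (hdeg₁ : ∀ v : Place K F₁, v.deg = 1) (hdeg₂ : ∀ v : Place K F₂, v.deg = 1)
    (A₁ : Divisor K F₁) (A₂ : Divisor K F₂) (T₁ : Finset (Place K F₁)) (T₂ : Finset (Place K F₂))
    (n : ℕ) (hn : finrank K ↥(ttnkL ν₁ ν₂ A₁ A₂) ≤ n) :
    ∃ (n₁ n₂ : ℕ) (_ : n₁ + n₂ = n) (pts₁ : Fin n₁ → Place K F₁) (pts₂ : Fin n₂ → Place K F₂)
      (hA₁ : ∀ j, A₁ (pts₁ j) = 0) (hA₂ : ∀ j, A₂ (pts₂ j) = 0),
      Function.Injective pts₁ ∧ Function.Injective pts₂ ∧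
      (∀ j, pts₁ j ∉ T₁) ∧ (∀ j, pts₂ j ∉ T₂) ∧
      (∀ j i, pts₁ j ≠ ν₁ i) ∧ (∀ j i, pts₂ j ≠ ν₂ i) ∧
      ∀ c : ↥(ttnkL ν₁ ν₂ A₁ A₂),
        (∀ i, ttngEvk hdeg₁ hdeg₂ (ttng_L_le ν₁ ν₂ A₁ A₂) pts₁ pts₂ hA₁ hA₂ i c = 0) → c = 0 := by
  classical
  have hfin := ttng_L_finite ν₁ ν₂ R₁ R₂ A₁ A₂
  obtain ⟨n₁, n₂, hsum, pts₁, pts₂, hA₁, hA₂, hi₁, hi₂, hT₁, hT₂, hkill⟩ :=
    ttng_kill_ev R₁ R₂ hdeg₁ hdeg₂ (T₁ ∪ Finset.univ.image ν₁) (T₂ ∪ Finset.univ.image ν₂)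
      (ttnkL ν₁ ν₂ A₁ A₂) (ttng_L_le ν₁ ν₂ A₁ A₂) n hn
  refine ⟨n₁, n₂, hsum, pts₁, pts₂, hA₁, hA₂, hi₁, hi₂, ?_, ?_, ?_, ?_, hkill⟩
  · intro j h
    exact hT₁ j (Finset.mem_union_left _ h)
  · intro j h
    exact hT₂ j (Finset.mem_union_left _ h)
  · intro j i h
    exact hT₁ j (Finset.mem_union_right _ (Finset.mem_image.mpr ⟨i, Finset.mem_univ i, h.symm⟩))
  · intro j i h
    exact hT₂ j (Finset.mem_union_right _ (Finset.mem_image.mpr ⟨i, Finset.mem_univ i, h.symm⟩))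

end Fermat.Agent.TT
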